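/-
S25 helper (helper326), block GLUE: sectionwise morphisms of `𝒪_X`-modules over an open `G`
(`LocHom G P Q`), and the constructor `mkHom` of morphisms of modules from sectionwise data.
-/
import Mathlib
import Fermat.Agent.S25.H626.SmulHom

set_option autoImplicit false
set_option linter.unusedVariables false

universe u

noncomputable section

open CategoryTheory AlgebraicGeometry TopologicalSpace Opposite

namespace Fermat.Agent.S25.H326

open Fermat.Agent.S25.H626 (res resO res_res res_smul res_add app_res hom_ext_apply)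

variable {X : Scheme.{u}}

/-! ### Morphisms of modules from sectionwise data -/

section MkHom

variable {M N : X.Modules}

/-- The morphism of abelian presheaves underlying `mkHom`. -/
def mkPresheafHom (a : ∀ W : X.Opens, Γ(M, W) →+ Γ(N, W))
    (nat : ∀ (W W' : X.Opens) (h : W' ≤ W) (s : Γ(M, W)),
      a W' (res M h s) = res N h (a W s)) : M.presheaf ⟶ N.presheaf where
  app U := AddCommGrpCat.ofHom (a U.unop)
  naturality U V f := by
    ext s
    have h := nat U.unop V.unop (leOfHom f.unop) s
    have e : f = (homOfLE (leOfHom f.unop)).op := by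
      apply Quiver.Hom.unop_inj
      exact Subsingleton.elim _ _
    rw [e]
    exact h

/-- A morphism of `𝒪_X`-modules from a family of additive maps on sections which is compatible
with restrictions and linear. -/
def mkHom (a : ∀ W : X.Opens, Γ(M, W) →+ Γ(N, W))
    (nat : ∀ (W W' : X.Opens) (h : W' ≤ W) (s : Γ(M, W)),
      a W' (res M h s) = res N h (a W s))
    (lin : ∀ (W : X.Opens) (r : Γ(X, W)) (s : Γ(M, W)), a W (r • s) = r • a W s) : M ⟶ N :=
  ⟨PresheafOfModules.homMk (mkPresheafHom a nat) (by
    intro U r m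
    exact lin U.unop r m)⟩

@[simp] theorem mkHom_app (a : ∀ W : X.Opens, Γ(M, W) →+ Γ(N, W))
    (nat : ∀ (W W' : X.Opens) (h : W' ≤ W) (s : Γ(M, W)),
      a W' (res M h s) = res N h (a W s))
    (lin : ∀ (W : X.Opens) (r : Γ(X, W)) (s : Γ(M, W)), a W (r • s) = r • a W s)
    (W : X.Opens) (s : Γ(M, W)) : (mkHom a nat lin).app W s = a W s := rfl

end MkHom

/-! ### Restrictions between equal opens -/

section ResEq

variable (M : X.Modules)

theorem res_res_cancel {W W' : X.Opens} (h : W' ≤ W) (h' : W ≤ W') (s : Γ(M, W)) :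
    res M h' (res M h s) = s := by
  rw [res_res]
  exact Fermat.Agent.S25.H626.res_id M s

theorem res_injective_of_le {W W' : X.Opens} (h : W' ≤ W) (h' : W ≤ W') :
    Function.Injective (res M h) := by
  intro s t hst
  have := congrArg (res M h') hst
  rwa [res_res_cancel, res_res_cancel] at this

theorem res_surjective_of_le {W W' : X.Opens} (h : W' ≤ W) (h' : W ≤ W') :
    Function.Surjective (res M h) := fun s => ⟨res M h' s, res_res_cancel M h' h s⟩

theorem res_bijective_of_le {W W' : X.Opens} (h : W' ≤ W) (h' : W ≤ W') :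
    Function.Bijective (res M h) :=
  ⟨res_injective_of_le M h h', res_surjective_of_le M h h'⟩

/-- Restriction as an additive map. -/
def resHom {W W' : X.Opens} (h : W' ≤ W) : Γ(M, W) →+ Γ(M, W') :=
  (M.presheaf.map (homOfLE h).op).hom

@[simp] theorem resHom_apply {W W' : X.Opens} (h : W' ≤ W) (s : Γ(M, W)) :
    resHom M h s = res M h s := rfl

theorem resO_resO_cancel {W W' : X.Opens} (h : W' ≤ W) (h' : W ≤ W') (r : Γ(X, W)) :
    resO h' (resO h r) = r := by
  rw [Fermat.Agent.S25.H626.resO_resO]
  exact Fermat.Agent.S25.H626.resO_id r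

end ResEq

/-! ### Sectionwise morphisms over an open -/

/-- A morphism between the restrictions of `P` and `Q` to the open `G`, given sectionwise:
additive maps `Γ(P, W) → Γ(Q, W)` for all opens `W ≤ G`, linear and compatible with
restrictions. -/
structure LocHom (G : X.Opens) (P Q : X.Modules) where
  /-- the map on sections over `W ≤ G` -/
  app : ∀ (W : X.Opens), W ≤ G → (Γ(P, W) →+ Γ(Q, W))
  app_smul : ∀ (W : X.Opens) (hW : W ≤ G) (r : Γ(X, W)) (s : Γ(P, W)),
    app W hW (r • s) = r • app W hW s
  app_res : ∀ (W W' : X.Opens) (hW : W ≤ G) (h : W' ≤ W) (s : Γ(P, W)),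
    app W' (h.trans hW) (res P h s) = res Q h (app W hW s)

namespace LocHom

variable {G : X.Opens} {P Q R : X.Modules}

theorem ext {φ ψ : LocHom G P Q}
    (h : ∀ (W : X.Opens) (hW : W ≤ G) (s : Γ(P, W)), φ.app W hW s = ψ.app W hW s) : φ = ψ := by
  cases φ; cases ψ
  congr
  funext W hW
  exact AddMonoidHom.ext (h W hW)

/-- The identity. -/
def id (G : X.Opens) (P : X.Modules) : LocHom G P P where
  app _ _ := AddMonoidHom.id _
  app_smul _ _ _ _ := rfl
  app_res _ _ _ _ _ := rfl

/-- Composition. -/
def comp (φ : LocHom G P Q) (ψ : LocHom G Q R) : LocHom G P R where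
  app W hW := (ψ.app W hW).comp (φ.app W hW)
  app_smul W hW r s := by
    simp only [AddMonoidHom.comp_apply]
    rw [φ.app_smul, ψ.app_smul]
  app_res W W' hW h s := by
    simp only [AddMonoidHom.comp_apply]
    rw [φ.app_res, ψ.app_res]

/-- Restriction to a smaller open. -/
def restrict {G' : X.Opens} (φ : LocHom G P Q) (h : G' ≤ G) : LocHom G' P Q where
  app W hW := φ.app W (hW.trans h)
  app_smul W _ r s := φ.app_smul W _ r s
  app_res W W' _ h' s := φ.app_res W W' _ h' s

/-- A global morphism, sectionwise over `G`. -/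
def ofHom (G : X.Opens) (f : P ⟶ Q) : LocHom G P Q where
  app W _ := (f.app W).hom
  app_smul W _ r s := Scheme.Modules.Hom.app_smul f r s
  app_res W W' _ h s := Fermat.Agent.S25.H626.app_res f h s

@[simp] theorem id_app (W : X.Opens) (hW : W ≤ G) (s : Γ(P, W)) : (id G P).app W hW s = s := rfl

@[simp] theorem comp_app (φ : LocHom G P Q) (ψ : LocHom G Q R) (W : X.Opens) (hW : W ≤ G)
    (s : Γ(P, W)) : (φ.comp ψ).app W hW s = ψ.app W hW (φ.app W hW s) := rfl

@[simp] theorem restrict_app {G' : X.Opens} (φ : LocHom G P Q) (h : G' ≤ G) (W : X.Opens)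
    (hW : W ≤ G') (s : Γ(P, W)) : (φ.restrict h).app W hW s = φ.app W (hW.trans h) s := rfl

@[simp] theorem ofHom_app (f : P ⟶ Q) (W : X.Opens) (hW : W ≤ G) (s : Γ(P, W)) :
    (ofHom G f).app W hW s = f.app W s := rfl

/-- A sectionwise morphism over `⊤` is a morphism. -/
def toHomTop (φ : LocHom (⊤ : X.Opens) P Q) : P ⟶ Q :=
  mkHom (fun W => φ.app W le_top) (fun W W' h s => φ.app_res W W' le_top h s)
    (fun W r s => φ.app_smul W le_top r s)

@[simp] theorem toHomTop_app (φ : LocHom (⊤ : X.Opens) P Q) (W : X.Opens) (s : Γ(P, W)) :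
    φ.toHomTop.app W s = φ.app W le_top s := rfl

end LocHom

end Fermat.Agent.S25.H326

end
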