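/-
S25 helper (helper326), block GLUE, leaf G2 (general covers): gluing of `𝒪_X`-modules along an
arbitrary family of opens, from sectionwise transition maps satisfying the cocycle condition.
-/
import Mathlib
import Fermat.Agent.S25.H326.Loc

set_option autoImplicit false
set_option linter.unusedVariables false

universe u

noncomputable section

open CategoryTheory AlgebraicGeometry TopologicalSpace Opposite Limits

namespace Fermat.Agent.S25.H326

open Fermat.Agent.S25.H626 (res resO res_res res_smul res_add app_res hom_ext_apply resO_resO)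

variable {X : Scheme.{u}}

/-! ### Sections of a multiequalizer of modules -/

section Sections

/-- Evaluation of abelian presheaves at an open. -/
def evOpen (W : X.Opens) : TopCat.Presheaf Ab.{u} X ⥤ Ab.{u} :=
  (evaluation (X.Opensᵒᵖ) Ab.{u}).obj (op W)

instance (W : X.Opens) : PreservesLimitsOfSize.{u, u} (evOpen (X := X) W) :=
  inferInstanceAs
    (PreservesLimitsOfSize.{u, u} ((evaluation (X.Opensᵒᵖ) Ab.{u}).obj (op W)))

/-- Sections over `W`, as a functor to types. -/
def secFunctor (W : X.Opens) : X.Modules ⥤ Type u :=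
  Scheme.Modules.toPresheaf X ⋙ evOpen W ⋙ forget Ab.{u}

instance (W : X.Opens) : PreservesLimitsOfSize.{u, u} (secFunctor (X := X) W) := by
  unfold secFunctor
  infer_instance

variable {ι : Type u} (I : MulticospanIndex (MulticospanShape.prod ι) X.Modules)

theorem multieq_sections_ext (W : X.Opens) (x y : Γ(multiequalizer I, W))
    (h : ∀ i, (Multiequalizer.ι I i).app W x = (Multiequalizer.ι I i).app W y) : x = y := by
  have hlim := isLimitOfPreserves (secFunctor W) (limit.isLimit I.multicospan)
  apply (Types.isLimitEquivSections hlim).injective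
  apply Subtype.ext
  funext j
  rcases j with i | b
  · exact h i
  · have hx := ((Types.isLimitEquivSections hlim) x).2 (WalkingMulticospan.Hom.fst b)
    have hy := ((Types.isLimitEquivSections hlim) y).2 (WalkingMulticospan.Hom.fst b)
    rw [← hx, ← hy]
    congr 1
    exact h _

theorem multieq_sections_exists (W : X.Opens) (s : ∀ i, Γ(I.left i, W))
    (hs : ∀ p : ι × ι, (I.fst p).app W (s p.1) = (I.snd p).app W (s p.2)) :
    ∃ x : Γ(multiequalizer I, W), ∀ i, (Multiequalizer.ι I i).app W x = s i := by
  have hlim := isLimitOfPreserves (secFunctor W) (limit.isLimit I.multicospan)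
  let sec : (I.multicospan ⋙ secFunctor W).sections :=
    ⟨fun j => match j with
      | WalkingMulticospan.left i => s i
      | WalkingMulticospan.right b => (I.fst b).app W (s b.1), by
      rintro (a | b) (a' | b') (f | f | f)
      · simp only [WalkingMulticospan.Hom.id_eq_id]; rfl
      · rfl
      · exact (hs b').symm
      · simp only [WalkingMulticospan.Hom.id_eq_id]; rfl⟩
  refine ⟨(Types.isLimitEquivSections hlim).symm sec, fun i => ?_⟩
  exact Types.isLimitEquivSections_symm_apply hlim sec (WalkingMulticospan.left i)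

theorem multieq_condition (W : X.Opens) (x : Γ(multiequalizer I, W)) (p : ι × ι) :
    (I.fst p).app W ((Multiequalizer.ι I p.1).app W x) =
      (I.snd p).app W ((Multiequalizer.ι I p.2).app W x) := by
  have h := Multiequalizer.condition I p
  have h2 := congrArg (fun f => Scheme.Modules.Hom.app f W) h
  simp only [Scheme.Modules.Hom.comp_app] at h2
  exact congr($h2 x)

end Sections

/-! ### The module `P` cut down to an open `G` -/

section Cut

/-- The open `G ∩ W`, in the form in which it appears in the sections of `onOpen G P`. -/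
abbrev cut (G W : X.Opens) : X.Opens := G.ι ''ᵁ (G.ι ⁻¹ᵁ W)

theorem cut_eq (G W : X.Opens) : cut G W = G ⊓ W := by
  unfold cut
  rw [Scheme.Hom.image_preimage_eq_opensRange_inf, Scheme.Opens.opensRange_ι]

theorem cut_le_left (G W : X.Opens) : cut G W ≤ G := by
  rw [cut_eq]; exact inf_le_left

theorem cut_le_right (G W : X.Opens) : cut G W ≤ W := by
  rw [cut_eq]; exact inf_le_right

theorem le_cut {G W W' : X.Opens} (h1 : W' ≤ G) (h2 : W' ≤ W) : W' ≤ cut G W := by
  rw [cut_eq]; exact le_inf h1 h2

theorem cut_mono {G G' W W' : X.Opens} (hG : G' ≤ G) (hW : W' ≤ W) : cut G' W' ≤ cut G W :=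
  le_cut ((cut_le_left G' W').trans hG) ((cut_le_right G' W').trans hW)

/-- The module whose sections over `W` are the sections of `P` over `G ∩ W`. -/
def onOpen (G : X.Opens) (P : X.Modules) : X.Modules :=
  (Scheme.Modules.pushforward G.ι).obj (P.restrict G.ι)

variable (G : X.Opens) (P : X.Modules)

/-- Sections of `onOpen G P` over `W` are sections of `P` over `cut G W` (the identity). -/
def toCut (W : X.Opens) : Γ(onOpen G P, W) →+ Γ(P, cut G W) := AddMonoidHom.id _

/-- Sections of `P` over `cut G W` are sections of `onOpen G P` over `W` (the identity). -/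
def ofCut (W : X.Opens) : Γ(P, cut G W) →+ Γ(onOpen G P, W) := AddMonoidHom.id _

@[simp] theorem toCut_ofCut (W : X.Opens) (s : Γ(P, cut G W)) :
    toCut G P W (ofCut G P W s) = s := rfl

@[simp] theorem ofCut_toCut (W : X.Opens) (s : Γ(onOpen G P, W)) :
    ofCut G P W (toCut G P W s) = s := rfl

theorem toCut_res {W W' : X.Opens} (h : W' ≤ W) (s : Γ(onOpen G P, W)) :
    toCut G P W' (res (onOpen G P) h s) = res P (cut_mono le_rfl h) (toCut G P W s) := rfl

theorem ofCut_res {W W' : X.Opens} (h : W' ≤ W) (s : Γ(P, cut G W)) :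
    ofCut G P W' (res P (cut_mono le_rfl h) s) = res (onOpen G P) h (ofCut G P W s) := rfl

theorem toCut_smul (W : X.Opens) (r : Γ(X, W)) (s : Γ(onOpen G P, W)) :
    toCut G P W (r • s) = resO (cut_le_right G W) r • toCut G P W s := by
  have h : (r • s : Γ(onOpen G P, W)) =
      ofCut G P W (((G.ι.appIso (G.ι ⁻¹ᵁ W)).inv ((G.ι.app W) r)) • toCut G P W s) := rfl
  rw [h, toCut_ofCut]
  congr 1
  exact congr($(G.ι.app_appIso_inv W) r)

theorem ofCut_smul (W : X.Opens) (r : Γ(X, W)) (s : Γ(P, cut G W)) :
    ofCut G P W (resO (cut_le_right G W) r • s) = r • ofCut G P W s := by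
  have := toCut_smul G P W r (ofCut G P W s)
  rw [toCut_ofCut] at this
  rw [← this, ofCut_toCut]

end Cut

/-! ### Morphisms between cut-down modules -/

section CutMaps

variable {G G' : X.Opens} {P Q : X.Modules}

/-- Restriction `onOpen G P ⟶ onOpen G' P` for `G' ≤ G`. -/
def cutRes (P : X.Modules) (h : G' ≤ G) : onOpen G P ⟶ onOpen G' P :=
  mkHom (fun W => (ofCut G' P W).comp ((resHom P (cut_mono h le_rfl)).comp (toCut G P W)))
    (fun W W' h' s => by
      simp only [AddMonoidHom.comp_apply, resHom_apply]
      rw [toCut_res, res_res, ← ofCut_res, res_res])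
    (fun W r s => by
      simp only [AddMonoidHom.comp_apply, resHom_apply]
      rw [toCut_smul, res_smul, resO_resO, ofCut_smul])

theorem toCut_cutRes_app (h : G' ≤ G) (W : X.Opens) (s : Γ(onOpen G P, W)) :
    toCut G' P W ((cutRes P h).app W s) = res P (cut_mono h le_rfl) (toCut G P W s) := rfl

/-- The morphism `onOpen G P ⟶ onOpen G Q` induced by a sectionwise morphism over `G`. -/
def cutMap (φ : LocHom G P Q) : onOpen G P ⟶ onOpen G Q :=
  mkHom (fun W => (ofCut G Q W).comp ((φ.app (cut G W) (cut_le_left G W)).comp (toCut G P W)))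
    (fun W W' h' s => by
      simp only [AddMonoidHom.comp_apply]
      rw [toCut_res, φ.app_res (cut G W) (cut G W') (cut_le_left G W) (cut_mono le_rfl h'),
        ofCut_res])
    (fun W r s => by
      simp only [AddMonoidHom.comp_apply]
      rw [toCut_smul, φ.app_smul, ofCut_smul])

theorem toCut_cutMap_app (φ : LocHom G P Q) (W : X.Opens) (s : Γ(onOpen G P, W)) :
    toCut G Q W ((cutMap φ).app W s) = φ.app (cut G W) (cut_le_left G W) (toCut G P W s) := rfl

end CutMaps

/-! ### Gluing data and the glued module -/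

/-- Sectionwise gluing data for `𝒪_X`-modules: modules `P i`, opens `G i`, and sectionwise
transition morphisms `τ i j : P i → P j` over `G i ⊓ G j` satisfying the cocycle condition.
(Only the sections of `P i` over opens contained in `G i` matter.) -/
structure GlueData (X : Scheme.{u}) (ι : Type u) where
  /-- the opens -/
  G : ι → X.Opens
  /-- the modules -/
  P : ι → X.Modules
  /-- the transition morphisms -/
  τ : ∀ i j, LocHom (G i ⊓ G j) (P i) (P j)
  τ_self : ∀ (i : ι) (W : X.Opens) (hW : W ≤ G i ⊓ G i) (s : Γ(P i, W)),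
    (τ i i).app W hW s = s
  τ_cocycle : ∀ (i j k : ι) (W : X.Opens) (hij : W ≤ G i ⊓ G j) (hjk : W ≤ G j ⊓ G k)
    (hik : W ≤ G i ⊓ G k) (s : Γ(P i, W)),
    (τ j k).app W hjk ((τ i j).app W hij s) = (τ i k).app W hik s

namespace GlueData

variable {ι : Type u} (D : GlueData X ι)

/-- The multicospan whose limit is the glued module. -/
def index : MulticospanIndex (MulticospanShape.prod ι) X.Modules where
  left i := onOpen (D.G i) (D.P i)
  right p := onOpen (D.G p.1 ⊓ D.G p.2) (D.P p.2)
  fst p := cutRes (D.P p.1) inf_le_left ≫ cutMap (D.τ p.1 p.2)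
  snd p := cutRes (D.P p.2) inf_le_right

/-- The glued module. -/
def glued : X.Modules := multiequalizer D.index

/-- The canonical morphism from the glued module to the `i`-th cut-down module. -/
def ιhom (i : ι) : D.glued ⟶ onOpen (D.G i) (D.P i) := Multiequalizer.ι D.index i

/-- The `i`-th component of a section of the glued module. -/
def comp (i : ι) (W : X.Opens) : Γ(D.glued, W) →+ Γ(D.P i, cut (D.G i) W) :=
  (toCut (D.G i) (D.P i) W).comp ((D.ιhom i).app W).hom

theorem comp_apply (i : ι) (W : X.Opens) (x : Γ(D.glued, W)) :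
    D.comp i W x = toCut (D.G i) (D.P i) W ((D.ιhom i).app W x) := rfl

theorem comp_res (i : ι) {W W' : X.Opens} (h : W' ≤ W) (x : Γ(D.glued, W)) :
    D.comp i W' (res D.glued h x) = res (D.P i) (cut_mono le_rfl h) (D.comp i W x) := by
  rw [comp_apply, comp_apply, app_res, toCut_res]

theorem comp_smul (i : ι) (W : X.Opens) (r : Γ(X, W)) (x : Γ(D.glued, W)) :
    D.comp i W (r • x) = resO (cut_le_right (D.G i) W) r • D.comp i W x := by
  rw [comp_apply, comp_apply, Scheme.Modules.Hom.app_smul, toCut_smul]

theorem comp_ext (W : X.Opens) (x y : Γ(D.glued, W)) (h : ∀ i, D.comp i W x = D.comp i W y) :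
    x = y :=
  multieq_sections_ext D.index W x y h

theorem comp_condition (i j : ι) (W : X.Opens) (x : Γ(D.glued, W)) :
    (D.τ i j).app (cut (D.G i ⊓ D.G j) W) (cut_le_left _ _)
        (res (D.P i) (cut_mono inf_le_left le_rfl) (D.comp i W x)) =
      res (D.P j) (cut_mono inf_le_right le_rfl) (D.comp j W x) :=
  multieq_condition D.index W x (i, j)

theorem exists_of_comp (W : X.Opens) (s : ∀ i, Γ(D.P i, cut (D.G i) W))
    (hs : ∀ i j, (D.τ i j).app (cut (D.G i ⊓ D.G j) W) (cut_le_left _ _)
        (res (D.P i) (cut_mono inf_le_left le_rfl) (s i)) =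
      res (D.P j) (cut_mono inf_le_right le_rfl) (s j)) :
    ∃ x : Γ(D.glued, W), ∀ i, D.comp i W x = s i :=
  multieq_sections_exists D.index W (fun i => ofCut (D.G i) (D.P i) W (s i))
    (fun p => hs p.1 p.2)

/-- The projection of the glued module to `P i`, over `G i`. -/
def proj (i : ι) : LocHom (D.G i) D.glued (D.P i) where
  app W hW := (resHom (D.P i) (le_cut hW le_rfl)).comp (D.comp i W)
  app_smul W hW r s := by
    simp only [AddMonoidHom.comp_apply, resHom_apply]
    rw [comp_smul, res_smul, resO_resO]
    congr 1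
    exact Fermat.Agent.S25.H626.resO_id r
  app_res W W' hW h s := by
    simp only [AddMonoidHom.comp_apply, resHom_apply]
    rw [comp_res, res_res, res_res]

theorem proj_app (i : ι) (W : X.Opens) (hW : W ≤ D.G i) (x : Γ(D.glued, W)) :
    (D.proj i).app W hW x = res (D.P i) (le_cut hW le_rfl) (D.comp i W x) := rfl

/-- The component of `x` is the projection of the restriction of `x`. -/
theorem proj_cut (i : ι) (W : X.Opens) (x : Γ(D.glued, W)) :
    (D.proj i).app (cut (D.G i) W) (cut_le_left _ _) (res D.glued (cut_le_right _ _) x) =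
      D.comp i W x := by
  rw [proj_app, comp_res, res_res]
  exact Fermat.Agent.S25.H626.res_id _ _

theorem proj_compat (i j : ι) (W : X.Opens) (hW : W ≤ D.G i ⊓ D.G j) (x : Γ(D.glued, W)) :
    (D.τ i j).app W hW ((D.proj i).app W (hW.trans inf_le_left) x) =
      (D.proj j).app W (hW.trans inf_le_right) x := by
  have h := D.comp_condition i j W x
  have hW' : W ≤ cut (D.G i ⊓ D.G j) W := le_cut hW le_rfl
  have h2 := congrArg (res (D.P j) hW') h
  rw [← (D.τ i j).app_res _ _ (cut_le_left _ _) hW', res_res, res_res] at h2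
  exact h2

theorem proj_injective (k : ι) (W : X.Opens) (hW : W ≤ D.G k) :
    Function.Injective ((D.proj k).app W hW) := by
  intro x y hxy
  apply D.comp_ext
  intro i
  rw [← proj_cut, ← proj_cut]
  have hWi : cut (D.G i) W ≤ D.G k ⊓ D.G i :=
    le_inf ((cut_le_right _ _).trans hW) (cut_le_left _ _)
  rw [← D.proj_compat k i _ hWi, ← D.proj_compat k i _ hWi]
  congr 1
  rw [(D.proj k).app_res W _ hW (cut_le_right _ _), (D.proj k).app_res W _ hW (cut_le_right _ _),
    hxy]

theorem proj_surjective (k : ι) (W : X.Opens) (hW : W ≤ D.G k) :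
    Function.Surjective ((D.proj k).app W hW) := by
  intro s
  have hWi : ∀ i, cut (D.G i) W ≤ D.G k ⊓ D.G i := fun i =>
    le_inf ((cut_le_right _ _).trans hW) (cut_le_left _ _)
  obtain ⟨x, hx⟩ := D.exists_of_comp W
    (fun i => (D.τ k i).app (cut (D.G i) W) (hWi i) (res (D.P k) (cut_le_right _ _) s)) (by
      intro i j
      have h1 : cut (D.G i ⊓ D.G j) W ≤ D.G k ⊓ D.G i :=
        le_inf ((cut_le_right _ _).trans hW) ((cut_le_left _ _).trans inf_le_left)
      have h2 : cut (D.G i ⊓ D.G j) W ≤ D.G k ⊓ D.G j :=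
        le_inf ((cut_le_right _ _).trans hW) ((cut_le_left _ _).trans inf_le_right)
      rw [← (D.τ k i).app_res _ _ (hWi i) (cut_mono inf_le_left le_rfl),
        ← (D.τ k j).app_res _ _ (hWi j) (cut_mono inf_le_right le_rfl), res_res, res_res,
        D.τ_cocycle k i j _ h1 (cut_le_left _ _) h2])
  refine ⟨x, ?_⟩
  rw [proj_app, hx k, ← (D.τ k k).app_res _ _ (hWi k) (le_cut hW le_rfl), res_res, D.τ_self]
  exact Fermat.Agent.S25.H626.res_id _ _

theorem proj_bijective (k : ι) (W : X.Opens) (hW : W ≤ D.G k) :
    Function.Bijective ((D.proj k).app W hW) :=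
  ⟨D.proj_injective k W hW, D.proj_surjective k W hW⟩

end GlueData

/-- **G2 (general covers, sectionwise form).**  Sectionwise gluing data glue to a module `M`
together with sectionwise isomorphisms `M ≅ P i` over `G i`, compatible with the transition
maps. -/
theorem exists_glue {ι : Type u} (D : GlueData X ι) :
    ∃ (M : X.Modules) (e : ∀ i, LocHom (D.G i) M (D.P i)),
      (∀ (i : ι) (W : X.Opens) (hW : W ≤ D.G i), Function.Bijective ((e i).app W hW)) ∧
      ∀ (i j : ι) (W : X.Opens) (hW : W ≤ D.G i ⊓ D.G j) (s : Γ(M, W)),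
        (D.τ i j).app W hW ((e i).app W (hW.trans inf_le_left) s) =
          (e j).app W (hW.trans inf_le_right) s :=
  ⟨D.glued, D.proj, D.proj_bijective, D.proj_compat⟩

end Fermat.Agent.S25.H326

end
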