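/-
S25 helper (helper326), block GLUE / AS6: sectionwise form of a rigidification.

For a morphism `f : T' ⟶ X` and an `𝒪_X`-module `L`, a morphism `(pullback f).obj L ⟶ 𝒪_{T'}`
is the same as (adjunction) an "evaluation" `ev : L ⟶ f_* 𝒪_{T'}`.  We show:
* `isIso_of_isRigidifying` : if `ev` sends local generators near `f(T')` to units, then the
  adjoint morphism `(pullback f).obj L ⟶ 𝒪_{T'}` is an isomorphism;
* `isUnit_ev_of_iso` : conversely, for an isomorphism `ρ : (pullback f).obj L ≅ 𝒪_{T'}` the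
  adjoint evaluation sends every local generator to a unit.
-/
import Mathlib
import Fermat.Agent.S25.H626.LocalGen
import Fermat.Agent.S25.H326.Glue

set_option autoImplicit false
set_option linter.unusedVariables false

universe u

noncomputable section

open CategoryTheory AlgebraicGeometry TopologicalSpace Opposite Limits

namespace Fermat.Agent.S25.H326

open Fermat.Agent.S25.H626 (res resO res_res res_smul res_add app_res hom_ext_apply resO_resO
  unitMod toUnit ofUnit IsLocalGenerator eq_of_locally_eq_M)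

/-! ### Gluing sections of a module -/

section GlueSections

variable {Y : Scheme.{u}} (N : Y.Modules)

/-- Compatible local sections of a module glue. -/
theorem exists_gluing_M {ι : Type*} (U : ι → Y.Opens) (V : Y.Opens) (hUV : ∀ i, U i ≤ V)
    (hcover : V ≤ iSup U) (n : ∀ i, Γ(N, U i))
    (hn : ∀ i j, res N (inf_le_left : U i ⊓ U j ≤ U i) (n i) =
      res N (inf_le_right : U i ⊓ U j ≤ U j) (n j)) :
    ∃ g : Γ(N, V), ∀ i, res N (hUV i) g = n i := by
  obtain ⟨g, hg, -⟩ := TopCat.Sheaf.existsUnique_gluing'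
    (⟨N.presheaf, N.isSheaf⟩ : TopCat.Sheaf Ab Y) U V (fun i => homOfLE (hUV i))
    hcover n (fun i j => hn i j)
  exact ⟨g, hg⟩

end GlueSections

/-! ### Sections of the unit module -/

section UnitMod

variable {Y : Scheme.{u}}

theorem unit_smul_eq (V : Y.Opens) (a : Γ(Y, V)) (b : Γ(unitMod Y, V)) :
    a • b = toUnit Y V (a * ofUnit Y V b) := rfl

theorem eq_smul_one (V : Y.Opens) (b : Γ(unitMod Y, V)) :
    b = ofUnit Y V b • toUnit Y V 1 := by
  rw [unit_smul_eq]
  change b = toUnit Y V (ofUnit Y V b * 1)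
  rw [mul_one]
  rfl

/-- A morphism out of the unit module is determined by the images of `1`. -/
theorem unitHom_app_eq {N : Y.Modules} (g : unitMod Y ⟶ N) (V : Y.Opens) (b : Γ(unitMod Y, V)) :
    g.app V b = ofUnit Y V b • g.app V (toUnit Y V 1) := by
  conv_lhs => rw [eq_smul_one V b]
  rw [Scheme.Modules.Hom.app_smul]

theorem res_unit_one {V V' : Y.Opens} (h : V' ≤ V) :
    res (unitMod Y) h (toUnit Y V 1) = toUnit Y V' 1 :=
  Fermat.Agent.S25.H626.res_toUnit_one Y h

theorem unitHom_app_one_res {N : Y.Modules} (g : unitMod Y ⟶ N) {V V' : Y.Opens} (h : V' ≤ V) :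
    g.app V' (toUnit Y V' 1) = res N h (g.app V (toUnit Y V 1)) := by
  rw [← app_res, res_unit_one]

/-- The morphism `𝒪_Y ⟶ N` attached to a global section of `N`. -/
def unitHomOfSection (N : Y.Modules) (n : Γ(N, ⊤)) : unitMod Y ⟶ N :=
  mkHom (fun V =>
      { toFun := fun b => ofUnit Y V b • res N (le_top : V ≤ ⊤) n
        map_zero' := by
          change (0 : Γ(Y, V)) • res N (le_top : V ≤ ⊤) n = 0
          exact zero_smul _ _
        map_add' := fun b b' => by
          change (ofUnit Y V b + ofUnit Y V b') • res N (le_top : V ≤ ⊤) n = _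
          exact add_smul _ _ _ })
    (fun V V' h b => by
      change ofUnit Y V' (res (unitMod Y) h b) • res N (le_top : V' ≤ ⊤) n =
        res N h (ofUnit Y V b • res N (le_top : V ≤ ⊤) n)
      rw [res_smul, res_res]
      rfl)
    (fun V r b => by
      change ofUnit Y V (r • b) • res N (le_top : V ≤ ⊤) n =
        r • (ofUnit Y V b • res N (le_top : V ≤ ⊤) n)
      rw [smul_smul]
      rfl)

theorem unitHomOfSection_app (N : Y.Modules) (n : Γ(N, ⊤)) (V : Y.Opens) (b : Γ(unitMod Y, V)) :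
    (unitHomOfSection N n).app V b = ofUnit Y V b • res N (le_top : V ≤ ⊤) n := rfl

end UnitMod

/-! ### Sections of a pushforward -/

section Pushforward

variable {X T' : Scheme.{u}} (f : T' ⟶ X)

/-- Sections of `f_* N` over `W` are sections of `N` over `f⁻¹ W` (the identity). -/
def pfTo (N : T'.Modules) (W : X.Opens) (n : Γ((Scheme.Modules.pushforward f).obj N, W)) :
    Γ(N, f ⁻¹ᵁ W) := n

/-- Sections of `N` over `f⁻¹ W` are sections of `f_* N` over `W` (the identity). -/
def pfOf (N : T'.Modules) (W : X.Opens) (n : Γ(N, f ⁻¹ᵁ W)) :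
    Γ((Scheme.Modules.pushforward f).obj N, W) := n

variable {f}

@[simp] theorem pfTo_pfOf (N : T'.Modules) (W : X.Opens) (n : Γ(N, f ⁻¹ᵁ W)) :
    pfTo f N W (pfOf f N W n) = n := rfl

@[simp] theorem pfOf_pfTo (N : T'.Modules) (W : X.Opens)
    (n : Γ((Scheme.Modules.pushforward f).obj N, W)) : pfOf f N W (pfTo f N W n) = n := rfl

theorem pfTo_injective (N : T'.Modules) (W : X.Opens) : Function.Injective (pfTo f N W) :=
  fun _ _ h => h

theorem pfTo_smul (N : T'.Modules) (W : X.Opens) (r : Γ(X, W))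
    (n : Γ((Scheme.Modules.pushforward f).obj N, W)) :
    pfTo f N W (r • n) = (f.app W r) • pfTo f N W n := rfl

theorem pfTo_res (N : T'.Modules) {W W' : X.Opens} (h : W' ≤ W)
    (n : Γ((Scheme.Modules.pushforward f).obj N, W)) :
    pfTo f N W' (res ((Scheme.Modules.pushforward f).obj N) h n) =
      res N (f.preimage_mono h) (pfTo f N W n) := rfl

theorem pfTo_map {N N' : T'.Modules} (g : N ⟶ N') (W : X.Opens)
    (n : Γ((Scheme.Modules.pushforward f).obj N, W)) :
    pfTo f N' W (((Scheme.Modules.pushforward f).map g).app W n) =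
      g.app (f ⁻¹ᵁ W) (pfTo f N W n) := rfl

theorem pfTo_add (N : T'.Modules) (W : X.Opens)
    (n n' : Γ((Scheme.Modules.pushforward f).obj N, W)) :
    pfTo f N W (n + n') = pfTo f N W n + pfTo f N W n' := rfl

/-- Restriction of functions commutes with `f.app`. -/
theorem app_resO {W W' : X.Opens} (h : W' ≤ W) (r : Γ(X, W)) :
    f.app W' (resO h r) = resO (f.preimage_mono h) (f.app W r) := by
  have := f.naturality (homOfLE h).op
  exact congr($this r)

end Pushforward

/-! ### Evaluations and rigidifications -/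

section Rig

variable {X T' : Scheme.{u}} (f : T' ⟶ X)

/-- The module `f_* 𝒪_{T'}` on `X`. -/
abbrev funMod : X.Modules := (Scheme.Modules.pushforward f).obj (unitMod T')

variable {f} {L : X.Modules}

/-- The value of an evaluation `ev : L ⟶ f_* 𝒪_{T'}` on a section, as a function on `f⁻¹ W`. -/
def evFun (ev : L ⟶ funMod f) (W : X.Opens) (s : Γ(L, W)) : Γ(T', f ⁻¹ᵁ W) :=
  ofUnit T' _ (pfTo f (unitMod T') W (ev.app W s))

theorem evFun_smul (ev : L ⟶ funMod f) (W : X.Opens) (r : Γ(X, W)) (s : Γ(L, W)) :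
    evFun ev W (r • s) = f.app W r * evFun ev W s := by
  unfold evFun
  rw [Scheme.Modules.Hom.app_smul, pfTo_smul]
  rfl

theorem evFun_res (ev : L ⟶ funMod f) {W W' : X.Opens} (h : W' ≤ W) (s : Γ(L, W)) :
    evFun ev W' (res L h s) = resO (f.preimage_mono h) (evFun ev W s) := by
  unfold evFun
  rw [app_res, pfTo_res]
  rfl

/-- The value of a morphism `ψ : L ⟶ f_* N` on a section, as a section of `N` over `f⁻¹ W`. -/
def pfVal {N : T'.Modules} (ψ : L ⟶ (Scheme.Modules.pushforward f).obj N) (W : X.Opens)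
    (s : Γ(L, W)) : Γ(N, f ⁻¹ᵁ W) :=
  pfTo f N W (ψ.app W s)

theorem pfVal_smul {N : T'.Modules} (ψ : L ⟶ (Scheme.Modules.pushforward f).obj N) (W : X.Opens)
    (r : Γ(X, W)) (s : Γ(L, W)) : pfVal ψ W (r • s) = f.app W r • pfVal ψ W s := by
  unfold pfVal
  rw [Scheme.Modules.Hom.app_smul, pfTo_smul]

theorem pfVal_res {N : T'.Modules} (ψ : L ⟶ (Scheme.Modules.pushforward f).obj N)
    {W W' : X.Opens} (h : W' ≤ W) (s : Γ(L, W)) :
    pfVal ψ W' (res L h s) = res N (f.preimage_mono h) (pfVal ψ W s) := by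
  unfold pfVal
  rw [app_res, pfTo_res]

theorem pfVal_ext {N : T'.Modules} {ψ ψ' : L ⟶ (Scheme.Modules.pushforward f).obj N}
    (h : ∀ (W : X.Opens) (s : Γ(L, W)), pfVal ψ W s = pfVal ψ' W s) : ψ = ψ' :=
  hom_ext_apply (fun W s => h W s)

/-- The value of `ev ≫ f_* g` for `g : 𝒪_{T'} ⟶ N`. -/
theorem pfVal_comp_map {N : T'.Modules} (ev : L ⟶ funMod f) (g : unitMod T' ⟶ N)
    (W : X.Opens) (s : Γ(L, W)) :
    pfVal (ev ≫ (Scheme.Modules.pushforward f).map g) W s =
      evFun ev W s • g.app (f ⁻¹ᵁ W) (toUnit T' _ 1) := by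
  have h : pfVal (ev ≫ (Scheme.Modules.pushforward f).map g) W s =
      g.app (f ⁻¹ᵁ W) (pfTo f (unitMod T') W (ev.app W s)) := rfl
  rw [h, unitHom_app_eq]
  rfl

/-- `ev` is *rigidifying*: near every point of `f(T')` there is a local generator of `L`
whose value is a unit. -/
def IsRigidifying (ev : L ⟶ funMod f) : Prop :=
  ∀ t : T', ∃ (W : X.Opens) (s : Γ(L, W)), t ∈ f ⁻¹ᵁ W ∧ IsLocalGenerator L W s ∧
    IsUnit (evFun ev W s)

/-- Key local computation: if `s` is a local generator on `W` and `ev(s) • n = ψ(s)`, then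
`ev(s') • n = ψ(s')` on `f⁻¹(W' ∩ W)` for every section `s'` over `W'`. -/
theorem key_local {N : T'.Modules} (ev : L ⟶ funMod f)
    (ψ : L ⟶ (Scheme.Modules.pushforward f).obj N) {W : X.Opens} {s : Γ(L, W)}
    (hs : IsLocalGenerator L W s) (n : Γ(N, f ⁻¹ᵁ W)) (hn : evFun ev W s • n = pfVal ψ W s)
    {W' : X.Opens} (s' : Γ(L, W')) :
    resO (f.preimage_mono (inf_le_left : W' ⊓ W ≤ W')) (evFun ev W' s') •
        res N (f.preimage_mono (inf_le_right : W' ⊓ W ≤ W)) n =
      res N (f.preimage_mono (inf_le_left : W' ⊓ W ≤ W')) (pfVal ψ W' s') := by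
  obtain ⟨r, hr⟩ := (hs (W' ⊓ W) inf_le_right).2 (res L inf_le_left s')
  simp only at hr
  rw [← evFun_res ev (inf_le_left : W' ⊓ W ≤ W') s', ← pfVal_res ψ (inf_le_left : W' ⊓ W ≤ W') s',
    ← hr, evFun_smul, pfVal_smul, evFun_res, pfVal_res, ← hn, res_smul, mul_smul]

theorem isUnit_resO {Y : Scheme.{u}} {V V' : Y.Opens} (h : V' ≤ V) {a : Γ(Y, V)}
    (ha : IsUnit a) : IsUnit (resO h a) :=
  ha.map (Y.presheaf.map (homOfLE h).op).hom

/-- Uniqueness of the local section `n` with `ev(s) • n = ψ(s)`. -/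
theorem key_unique {N : T'.Modules} (ev : L ⟶ funMod f) {W : X.Opens} {s : Γ(L, W)}
    (hu : IsUnit (evFun ev W s)) {V : T'.Opens} (hV : V ≤ f ⁻¹ᵁ W) (n n' : Γ(N, V))
    (h : resO hV (evFun ev W s) • n = resO hV (evFun ev W s) • n') : n = n' :=
  (isUnit_resO hV hu).smul_left_cancel.mp h

theorem comp_map_injective (ev : L ⟶ funMod f) (h : IsRigidifying ev) (N : T'.Modules) :
    Function.Injective
      (fun g : unitMod T' ⟶ N => ev ≫ (Scheme.Modules.pushforward f).map g) := by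
  intro g g' hgg'
  simp only at hgg'
  choose W s htW hs hu using h
  -- `g` and `g'` agree on `1` over each `f⁻¹ (W t)`
  have h1 : ∀ t, g.app (f ⁻¹ᵁ W t) (toUnit T' _ 1) = g'.app (f ⁻¹ᵁ W t) (toUnit T' _ 1) := by
    intro t
    have e1 := pfVal_comp_map ev g (W t) (s t)
    have e2 := pfVal_comp_map ev g' (W t) (s t)
    rw [hgg'] at e1
    have e3 := e1.symm.trans e2
    exact (hu t).smul_left_cancel.mp e3
  apply hom_ext_apply
  intro V b
  rw [unitHom_app_eq g, unitHom_app_eq g']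
  congr 1
  refine eq_of_locally_eq_M N (fun t => V ⊓ f ⁻¹ᵁ W t) V (fun _ => inf_le_left) ?_ _ _ ?_
  · intro t ht
    exact Opens.mem_iSup.mpr ⟨t, ⟨ht, htW t⟩⟩
  · intro t
    rw [← unitHom_app_one_res g, ← unitHom_app_one_res g',
      unitHom_app_one_res g (inf_le_right : V ⊓ f ⁻¹ᵁ W t ≤ f ⁻¹ᵁ W t),
      unitHom_app_one_res g' (inf_le_right : V ⊓ f ⁻¹ᵁ W t ≤ f ⁻¹ᵁ W t), h1 t]

theorem comp_map_surjective (ev : L ⟶ funMod f) (h : IsRigidifying ev) (N : T'.Modules) :
    Function.Surjective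
      (fun g : unitMod T' ⟶ N => ev ≫ (Scheme.Modules.pushforward f).map g) := by
  intro ψ
  choose W s htW hs hu using h
  -- the local sections
  obtain ⟨n, hn⟩ : ∃ n : ∀ t, Γ(N, f ⁻¹ᵁ W t),
      ∀ t, evFun ev (W t) (s t) • n t = pfVal ψ (W t) (s t) := by
    refine ⟨fun t =>
      (((hu t).unit⁻¹ : (Γ(T', f ⁻¹ᵁ W t))ˣ) : Γ(T', f ⁻¹ᵁ W t)) • pfVal ψ (W t) (s t), ?_⟩
    intro t
    rw [smul_smul, IsUnit.mul_val_inv, one_smul]
  -- compatibility on `f⁻¹ (W t' ⊓ W t)`
  have hcompat' : ∀ t t', res N (f.preimage_mono (inf_le_right : W t' ⊓ W t ≤ W t)) (n t) =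
      res N (f.preimage_mono (inf_le_left : W t' ⊓ W t ≤ W t')) (n t') := by
    intro t t'
    have h1 := key_local ev ψ (hs t) (n t) (hn t) (s t')
    rw [← hn t', res_smul] at h1
    exact (isUnit_resO _ (hu t')).smul_left_cancel.mp h1
  have hcompat : ∀ t t', res N (inf_le_left : f ⁻¹ᵁ W t ⊓ f ⁻¹ᵁ W t' ≤ f ⁻¹ᵁ W t) (n t) =
      res N (inf_le_right : f ⁻¹ᵁ W t ⊓ f ⁻¹ᵁ W t' ≤ f ⁻¹ᵁ W t') (n t') := by
    intro t t'
    have hle : f ⁻¹ᵁ W t ⊓ f ⁻¹ᵁ W t' ≤ f ⁻¹ᵁ (W t' ⊓ W t) := fun x hx => ⟨hx.2, hx.1⟩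
    have := congrArg (res N hle) (hcompat' t t')
    rwa [res_res, res_res] at this
  obtain ⟨n₀, hn₀⟩ := exists_gluing_M N (fun t => f ⁻¹ᵁ W t) ⊤ (fun _ => le_top)
    (fun x _ => Opens.mem_iSup.mpr ⟨x, htW x⟩) n hcompat
  refine ⟨unitHomOfSection N n₀, ?_⟩
  apply pfVal_ext
  intro W' s'
  rw [pfVal_comp_map, unitHomOfSection_app]
  have h1 : ofUnit T' (f ⁻¹ᵁ W') (toUnit T' (f ⁻¹ᵁ W') 1) = 1 := rfl
  rw [h1, one_smul]
  refine eq_of_locally_eq_M N (fun t => f ⁻¹ᵁ (W' ⊓ W t)) (f ⁻¹ᵁ W')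
    (fun t => f.preimage_mono inf_le_left) ?_ _ _ ?_
  · intro x hx
    exact Opens.mem_iSup.mpr ⟨x, ⟨hx, htW x⟩⟩
  · intro t
    rw [res_smul, res_res, ← key_local ev ψ (hs t) (n t) (hn t) s', ← hn₀ t, res_res]

theorem comp_map_bijective (ev : L ⟶ funMod f) (h : IsRigidifying ev) (N : T'.Modules) :
    Function.Bijective
      (fun g : unitMod T' ⟶ N => ev ≫ (Scheme.Modules.pushforward f).map g) :=
  ⟨comp_map_injective ev h N, comp_map_surjective ev h N⟩

/-- The morphism `(pullback f).obj L ⟶ 𝒪_{T'}` adjoint to an evaluation. -/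
def adjHom (ev : L ⟶ funMod f) : (Scheme.Modules.pullback f).obj L ⟶ unitMod T' :=
  ((Scheme.Modules.pullbackPushforwardAdjunction f).homEquiv L (unitMod T')).symm ev

/-- **R2.** The adjoint of a rigidifying evaluation is an isomorphism. -/
theorem isIso_adjHom (ev : L ⟶ funMod f) (h : IsRigidifying ev) : IsIso (adjHom ev) := by
  rw [isIso_iff_coyoneda_map_bijective]
  intro N
  rw [← ((Scheme.Modules.pullbackPushforwardAdjunction f).homEquiv _ _).bijective.of_comp_iff']
  convert comp_map_bijective ev h N using 1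
  funext g
  simp only [Function.comp_apply, adjHom, Adjunction.homEquiv_naturality_right,
    Equiv.apply_symm_apply]

/-- **R2.** A module with a rigidifying evaluation is rigidified. -/
theorem nonempty_iso_of_isRigidifying (ev : L ⟶ funMod f) (h : IsRigidifying ev) :
    Nonempty ((Scheme.Modules.pullback f).obj L ≅ unitMod T') :=
  ⟨@asIso _ _ _ _ (adjHom ev) (isIso_adjHom ev h)⟩

end Rig

/-! ### Coordinates with respect to a local generator -/

section Coord

variable {X : Scheme.{u}} {L : X.Modules} {W : X.Opens} {s : Γ(L, W)}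

/-- The coordinate of a section with respect to a local generator. -/
def coord (hs : IsLocalGenerator L W s) {W' : X.Opens} (h : W' ≤ W) (x : Γ(L, W')) : Γ(X, W') :=
  (Equiv.ofBijective _ (hs W' h)).symm x

theorem coord_smul_gen (hs : IsLocalGenerator L W s) {W' : X.Opens} (h : W' ≤ W)
    (x : Γ(L, W')) : coord hs h x • res L h s = x :=
  (Equiv.ofBijective _ (hs W' h)).apply_symm_apply x

theorem coord_eq_of_smul_eq (hs : IsLocalGenerator L W s) {W' : X.Opens} (h : W' ≤ W)
    (x : Γ(L, W')) (r : Γ(X, W')) (hr : r • res L h s = x) : coord hs h x = r := by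
  apply (hs W' h).1
  simp only
  rw [coord_smul_gen, hr]

theorem coord_smul (hs : IsLocalGenerator L W s) {W' : X.Opens} (h : W' ≤ W) (r : Γ(X, W'))
    (x : Γ(L, W')) : coord hs h (r • x) = r * coord hs h x := by
  apply coord_eq_of_smul_eq
  rw [mul_smul, coord_smul_gen]

theorem coord_add (hs : IsLocalGenerator L W s) {W' : X.Opens} (h : W' ≤ W)
    (x y : Γ(L, W')) : coord hs h (x + y) = coord hs h x + coord hs h y := by
  apply coord_eq_of_smul_eq
  rw [add_smul, coord_smul_gen, coord_smul_gen]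

theorem coord_res (hs : IsLocalGenerator L W s) {W' W'' : X.Opens} (h : W' ≤ W)
    (h' : W'' ≤ W') (x : Γ(L, W')) :
    coord hs (h'.trans h) (res L h' x) = resO h' (coord hs h x) := by
  apply coord_eq_of_smul_eq
  rw [← res_res L h h' s, ← res_smul, coord_smul_gen]

theorem coord_gen (hs : IsLocalGenerator L W s) {W' : X.Opens} (h : W' ≤ W) :
    coord hs h (res L h s) = 1 := by
  apply coord_eq_of_smul_eq
  rw [one_smul]

/-- The coordinate as an additive map. -/
def coordHom (hs : IsLocalGenerator L W s) {W' : X.Opens} (h : W' ≤ W) : Γ(L, W') →+ Γ(X, W') :=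
  AddMonoidHom.mk' (coord hs h) (coord_add hs h)

@[simp] theorem coordHom_apply (hs : IsLocalGenerator L W s) {W' : X.Opens} (h : W' ≤ W)
    (x : Γ(L, W')) : coordHom hs h x = coord hs h x := rfl

end Coord

/-! ### The probe morphism and the converse direction -/

section Probe

variable {X T' : Scheme.{u}} (f : T' ⟶ X) {L : X.Modules} {W : X.Opens} {s : Γ(L, W)}
  (hs : IsLocalGenerator L W s)

theorem cut_preimage_le (W W' : X.Opens) : cut (f ⁻¹ᵁ W) (f ⁻¹ᵁ W') ≤ f ⁻¹ᵁ (W' ⊓ W) :=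
  fun x hx => ⟨cut_le_right (f ⁻¹ᵁ W) (f ⁻¹ᵁ W') hx, cut_le_left (f ⁻¹ᵁ W) (f ⁻¹ᵁ W') hx⟩

/-- The value of the probe morphism: the pullback of the coordinate of `s'` with respect
to `s`, as a function on `f⁻¹ W ∩ f⁻¹ W'`. -/
def probeVal (W' : X.Opens) (s' : Γ(L, W')) : Γ(T', cut (f ⁻¹ᵁ W) (f ⁻¹ᵁ W')) :=
  resO (cut_preimage_le f W W')
    (f.app (W' ⊓ W) (coord hs inf_le_right (res L (inf_le_left : W' ⊓ W ≤ W') s')))

theorem probeVal_add (W' : X.Opens) (s' s'' : Γ(L, W')) :
    probeVal f hs W' (s' + s'') = probeVal f hs W' s' + probeVal f hs W' s'' := by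
  unfold probeVal
  rw [res_add, coord_add, map_add]
  exact map_add _ _ _

theorem probeVal_res {W' W'' : X.Opens} (h : W'' ≤ W') (s' : Γ(L, W')) :
    probeVal f hs W'' (res L h s') =
      resO (cut_mono le_rfl (f.preimage_mono h)) (probeVal f hs W' s') := by
  unfold probeVal
  have h2 : W'' ⊓ W ≤ W' ⊓ W := inf_le_inf h le_rfl
  have e : res L (inf_le_left : W'' ⊓ W ≤ W'') (res L h s') =
      res L h2 (res L (inf_le_left : W' ⊓ W ≤ W') s') := by
    rw [res_res, res_res]
  rw [e, coord_res hs inf_le_right h2, app_resO, resO_resO, resO_resO]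

theorem probeVal_smul (W' : X.Opens) (r : Γ(X, W')) (s' : Γ(L, W')) :
    probeVal f hs W' (r • s') =
      resO (cut_le_right (f ⁻¹ᵁ W) (f ⁻¹ᵁ W')) (f.app W' r) * probeVal f hs W' s' := by
  unfold probeVal
  rw [res_smul, coord_smul, map_mul, Fermat.Agent.S25.H626.resO_mul, app_resO, resO_resO]

theorem probeVal_gen : probeVal f hs W s = 1 := by
  unfold probeVal
  rw [coord_gen hs (inf_le_right : W ⊓ W ≤ W), map_one]
  exact Fermat.Agent.S25.H626.resO_one _

/-- The probe morphism `L ⟶ f_* (𝒪_{T'} cut down to f⁻¹ W)`, sending the local generator `s`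
to `1`. -/
def probe : L ⟶ (Scheme.Modules.pushforward f).obj (onOpen (f ⁻¹ᵁ W) (unitMod T')) :=
  mkHom (fun W' => AddMonoidHom.mk'
      (fun s' => pfOf f _ W' (ofCut (f ⁻¹ᵁ W) (unitMod T') (f ⁻¹ᵁ W')
        (toUnit T' _ (probeVal f hs W' s'))))
      (fun s' s'' => by
        rw [probeVal_add]
        rfl))
    (fun W' W'' h s' => by
      simp only [AddMonoidHom.mk'_apply]
      rw [probeVal_res]
      rfl)
    (fun W' r s' => by
      simp only [AddMonoidHom.mk'_apply]
      rw [probeVal_smul]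
      apply pfTo_injective
      rw [pfTo_smul, pfTo_pfOf, pfTo_pfOf, ← ofCut_smul]
      rfl)

theorem probe_val (W' : X.Opens) (s' : Γ(L, W')) :
    ofUnit T' _ (toCut (f ⁻¹ᵁ W) (unitMod T') (f ⁻¹ᵁ W') (pfVal (probe f hs) W' s')) =
      probeVal f hs W' s' := rfl

/-- **R1.** For an isomorphism `ρ : (pullback f).obj L ≅ 𝒪_{T'}`, the adjoint evaluation
sends every local generator to a unit. -/
theorem isUnit_evFun_of_iso (hs : IsLocalGenerator L W s)
    (ρ : (Scheme.Modules.pullback f).obj L ≅ unitMod T') :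
    IsUnit (evFun ((Scheme.Modules.pullbackPushforwardAdjunction f).homEquiv L (unitMod T')
      ρ.hom) W s) := by
  set adj := Scheme.Modules.pullbackPushforwardAdjunction f
  set ev := adj.homEquiv L (unitMod T') ρ.hom with hev
  let g : unitMod T' ⟶ onOpen (f ⁻¹ᵁ W) (unitMod T') :=
    ρ.inv ≫ (adj.homEquiv L _).symm (probe f hs)
  have hψ : ev ≫ (Scheme.Modules.pushforward f).map g = probe f hs := by
    rw [hev, ← Adjunction.homEquiv_naturality_right]
    simp only [g, Iso.hom_inv_id_assoc, Equiv.apply_symm_apply]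
  have h1 := pfVal_comp_map ev g W s
  rw [hψ] at h1
  have h2 := congrArg (fun x => ofUnit T' _ (toCut (f ⁻¹ᵁ W) (unitMod T') (f ⁻¹ᵁ W) x)) h1
  simp only at h2
  rw [probe_val, probeVal_gen, toCut_smul] at h2
  have h3 : IsUnit (resO (cut_le_right (f ⁻¹ᵁ W) (f ⁻¹ᵁ W)) (evFun ev W s)) :=
    IsUnit.of_mul_eq_one _ h2.symm
  have hle : f ⁻¹ᵁ W ≤ cut (f ⁻¹ᵁ W) (f ⁻¹ᵁ W) := le_cut le_rfl le_rfl
  have h4 := isUnit_resO hle h3
  rwa [resO_resO_cancel] at h4

end Probe

end Fermat.Agent.S25.H326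

end
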