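/-
S25 helper (helper326), assembly block AS6 (`Stmt.SheafGlue`), part 1: rigidified modules which
are locally free of rank one *over an open `G` only*, in sectionwise form.

* `LocHom.IsBij`, `LocHom.symm`, `LocHom.smul` : calculus of sectionwise isomorphisms;
* `RigLoc σ G P` : an evaluation `Γ(P, W) → Γ(T, σ⁻¹ W)` for the opens `W ≤ G`, semilinear along
  `σ : T ⟶ X`, where `P` has local generators over `G` and the evaluation sends local generators
  to units;
* `RigLoc.exists_ratio`, `RigLoc.exists_isNormalised`, `RigLoc.eq_of_isNormalised` : the ratio of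
  a sectionwise isomorphism, normalisation, and uniqueness of normalised isomorphisms.
-/
import Mathlib
import Fermat.Agent.S25.H326.Rig
import Fermat.Agent.S25.H146.Eval

set_option autoImplicit false
set_option linter.unusedVariables false

universe u

noncomputable section

open CategoryTheory AlgebraicGeometry TopologicalSpace Opposite Limits

namespace Fermat.Agent.S25.H326

open Fermat.Agent.S25.H626 (res resO res_res res_smul res_add app_res hom_ext_apply resO_resO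
  unitMod toUnit ofUnit IsLocalGenerator eq_of_locally_eq_M eq_of_locally_eq_O exists_gluing_O
  resO_mul resO_one)

variable {X T : Scheme.{u}}

/-! ### Sectionwise isomorphisms -/

namespace LocHom

variable {G : X.Opens} {P Q R : X.Modules}

/-- A sectionwise morphism is bijective if all its components are. -/
def IsBij (φ : LocHom G P Q) : Prop :=
  ∀ (W : X.Opens) (hW : W ≤ G), Function.Bijective (φ.app W hW)

theorem IsBij.restrict {φ : LocHom G P Q} (h : φ.IsBij) {G' : X.Opens} (hG : G' ≤ G) :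
    (φ.restrict hG).IsBij := fun W hW => h W (hW.trans hG)

theorem IsBij.comp {φ : LocHom G P Q} {ψ : LocHom G Q R} (h : φ.IsBij) (h' : ψ.IsBij) :
    (φ.comp ψ).IsBij := fun W hW => (h' W hW).comp (h W hW)

theorem isBij_id (G : X.Opens) (P : X.Modules) : (LocHom.id G P).IsBij :=
  fun _ _ => Function.bijective_id

/-- The inverse of a bijective sectionwise morphism. -/
def symm (φ : LocHom G P Q) (h : φ.IsBij) : LocHom G Q P where
  app W hW := ((AddEquiv.ofBijective (φ.app W hW) (h W hW)).symm : Γ(Q, W) →+ Γ(P, W))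
  app_smul W hW r s := by
    apply (h W hW).1
    rw [φ.app_smul]
    change (AddEquiv.ofBijective (φ.app W hW) (h W hW))
        ((AddEquiv.ofBijective (φ.app W hW) (h W hW)).symm (r • s)) =
      r • (AddEquiv.ofBijective (φ.app W hW) (h W hW))
        ((AddEquiv.ofBijective (φ.app W hW) (h W hW)).symm s)
    rw [AddEquiv.apply_symm_apply, AddEquiv.apply_symm_apply]
  app_res W W' hW h' s := by
    apply (h W' (h'.trans hW)).1
    rw [φ.app_res W W' hW h']
    change (AddEquiv.ofBijective (φ.app W' _) (h W' (h'.trans hW)))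
        ((AddEquiv.ofBijective (φ.app W' _) (h W' (h'.trans hW))).symm (res Q h' s)) =
      res Q h' ((AddEquiv.ofBijective (φ.app W hW) (h W hW))
        ((AddEquiv.ofBijective (φ.app W hW) (h W hW)).symm s))
    rw [AddEquiv.apply_symm_apply, AddEquiv.apply_symm_apply]

theorem apply_symm_apply (φ : LocHom G P Q) (h : φ.IsBij) (W : X.Opens) (hW : W ≤ G)
    (s : Γ(Q, W)) : φ.app W hW ((φ.symm h).app W hW s) = s :=
  (AddEquiv.ofBijective (φ.app W hW) (h W hW)).apply_symm_apply s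

theorem symm_apply_apply (φ : LocHom G P Q) (h : φ.IsBij) (W : X.Opens) (hW : W ≤ G)
    (s : Γ(P, W)) : (φ.symm h).app W hW (φ.app W hW s) = s :=
  (AddEquiv.ofBijective (φ.app W hW) (h W hW)).symm_apply_apply s

theorem isBij_symm (φ : LocHom G P Q) (h : φ.IsBij) : (φ.symm h).IsBij := fun W hW =>
  Function.bijective_iff_has_inverse.mpr
    ⟨φ.app W hW, fun s => apply_symm_apply φ h W hW s, fun s => symm_apply_apply φ h W hW s⟩

/-- Scaling a sectionwise morphism by a function on `G`. -/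
def smul (a : Γ(X, G)) (φ : LocHom G P Q) : LocHom G P Q where
  app W hW :=
    { toFun := fun s => resO hW a • φ.app W hW s
      map_zero' := by rw [map_zero, smul_zero]
      map_add' := fun s s' => by rw [map_add, smul_add] }
  app_smul W hW r s := by
    change resO hW a • φ.app W hW (r • s) = r • (resO hW a • φ.app W hW s)
    rw [φ.app_smul, smul_comm]
  app_res W W' hW h s := by
    change resO (h.trans hW) a • φ.app W' (h.trans hW) (res P h s) =
      res Q h (resO hW a • φ.app W hW s)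
    rw [φ.app_res W W' hW h, res_smul, resO_resO]

theorem smul_app (a : Γ(X, G)) (φ : LocHom G P Q) (W : X.Opens) (hW : W ≤ G) (s : Γ(P, W)) :
    (smul a φ).app W hW s = resO hW a • φ.app W hW s := rfl

theorem isBij_smul {φ : LocHom G P Q} (h : φ.IsBij) {a : Γ(X, G)} (ha : IsUnit a) :
    (smul a φ).IsBij := by
  intro W hW
  obtain ⟨u, hu⟩ := isUnit_resO hW ha
  have e : ((smul a φ).app W hW : Γ(P, W) → Γ(Q, W)) =
      (fun s => (u : Γ(X, W)) • s) ∘ φ.app W hW := by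
    funext s
    rw [smul_app, ← hu]
    rfl
  rw [e]
  refine Function.Bijective.comp ?_ (h W hW)
  refine Function.bijective_iff_has_inverse.mpr
    ⟨fun s => ((u⁻¹ : (Γ(X, W))ˣ) : Γ(X, W)) • s, fun s => ?_, fun s => ?_⟩
  · simp only [smul_smul, Units.inv_mul, one_smul]
  · simp only [smul_smul, Units.mul_inv, one_smul]

/-- The image of a local generator under a sectionwise isomorphism is a local generator. -/
theorem isLocalGenerator_app {φ : LocHom G P Q} (h : φ.IsBij) {W : X.Opens} (hW : W ≤ G)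
    {s : Γ(P, W)} (hs : IsLocalGenerator P W s) : IsLocalGenerator Q W (φ.app W hW s) := by
  intro W' hle
  have h1 : (fun r : Γ(X, W') => r • res Q hle (φ.app W hW s)) =
      φ.app W' (hle.trans hW) ∘ (fun r : Γ(X, W') => r • res P hle s) := by
    funext r
    simp only [Function.comp_apply]
    rw [φ.app_smul, φ.app_res W W' hW hle]
  rw [h1]
  exact (h W' (hle.trans hW)).comp (hs W' hle)

/-- If `φ t = c • φ' t` for a local generator `t` on `W₀`, then `φ = c • φ'` on all sections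
over opens `W ≤ W₀`. -/
theorem eq_smul_of_generator {φ φ' : LocHom G P Q} {W₀ : X.Opens} (h₀ : W₀ ≤ G)
    {t : Γ(P, W₀)} (ht : IsLocalGenerator P W₀ t) {c : Γ(X, W₀)}
    (hc : φ.app W₀ h₀ t = c • φ'.app W₀ h₀ t) (W : X.Opens) (hW : W ≤ W₀) (s : Γ(P, W)) :
    φ.app W (hW.trans h₀) s = resO hW c • φ'.app W (hW.trans h₀) s := by
  obtain ⟨r, hr⟩ := (ht W hW).2 s
  simp only at hr
  rw [← hr, φ.app_smul, φ'.app_smul, φ.app_res W₀ W h₀ hW t, φ'.app_res W₀ W h₀ hW t, hc,
    res_smul, smul_comm]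

end LocHom

/-! ### Local generators over an open -/

/-- `P` has local generators over the open `G`. -/
def HasLocalGeneratorsOn (G : X.Opens) (P : X.Modules) : Prop :=
  ∀ x : X, x ∈ G → ∃ (W : X.Opens) (s : Γ(P, W)), W ≤ G ∧ x ∈ W ∧ IsLocalGenerator P W s

theorem HasLocalGeneratorsOn.mono {G G' : X.Opens} {P : X.Modules}
    (h : HasLocalGeneratorsOn G P) (hG : G' ≤ G) : HasLocalGeneratorsOn G' P := by
  intro x hx
  obtain ⟨W, s, hWG, hxW, hs⟩ := h x (hG hx)
  exact ⟨W ⊓ G', res P inf_le_left s, inf_le_right, ⟨hxW, hx⟩,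
    H146.isLocalGenerator_res hs inf_le_left⟩

/-- **G4, sectionwise over an open.**  If `P` has local generators over `G` and `φ'` is a
sectionwise isomorphism over `G`, every sectionwise morphism `φ` over `G` is `a • φ'`. -/
theorem LocHom.exists_smul_eq {G : X.Opens} {P Q : X.Modules} (hP : HasLocalGeneratorsOn G P)
    (φ φ' : LocHom G P Q) (hφ' : φ'.IsBij) :
    ∃ a : Γ(X, G), ∀ (W : X.Opens) (hW : W ≤ G) (s : Γ(P, W)),
      φ.app W hW s = resO hW a • φ'.app W hW s := by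
  have hP' : ∀ x : G, ∃ (W : X.Opens) (s : Γ(P, W)), W ≤ G ∧ x.1 ∈ W ∧ IsLocalGenerator P W s :=
    fun x => hP x.1 x.2
  choose Wc t hWG hxW ht using hP'
  have ht' : ∀ x, IsLocalGenerator Q (Wc x) (φ'.app _ (hWG x) (t x)) := fun x =>
    LocHom.isLocalGenerator_app hφ' (hWG x) (ht x)
  have hex : ∀ x, ∃ c : Γ(X, Wc x), c • φ'.app _ (hWG x) (t x) = φ.app _ (hWG x) (t x) :=
    fun x => (H146.bijective_smul_of_isLocalGenerator (ht' x)).2 _
  choose c hc using hex
  have hPc : ∀ (x : G) (W : X.Opens) (hW : W ≤ Wc x) (s : Γ(P, W)),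
      φ.app W (hW.trans (hWG x)) s = resO hW (c x) • φ'.app W (hW.trans (hWG x)) s :=
    fun x W hW s => LocHom.eq_smul_of_generator (hWG x) (ht x) (hc x).symm W hW s
  have hcover : G ≤ iSup Wc := by
    intro x hx
    exact Opens.mem_iSup.mpr ⟨⟨x, hx⟩, hxW ⟨x, hx⟩⟩
  have hcompat : ∀ x y, resO (inf_le_left : Wc x ⊓ Wc y ≤ Wc x) (c x) =
      resO (inf_le_right : Wc x ⊓ Wc y ≤ Wc y) (c y) := by
    intro x y
    have hu := H146.isLocalGenerator_res (ht' x) (inf_le_left : Wc x ⊓ Wc y ≤ Wc x)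
    apply (H146.bijective_smul_of_isLocalGenerator hu).1
    simp only
    have e1 := hPc x (Wc x ⊓ Wc y) inf_le_left (res P inf_le_left (t x))
    have e2 := hPc y (Wc x ⊓ Wc y) inf_le_right (res P inf_le_left (t x))
    rw [φ'.app_res (Wc x) (Wc x ⊓ Wc y) (hWG x) inf_le_left (t x)] at e1 e2
    rw [← e1, ← e2]
  obtain ⟨a, ha⟩ := exists_gluing_O Wc G hWG hcover c hcompat
  refine ⟨a, fun W hW s => ?_⟩
  have hcoverW : W ≤ ⨆ x, W ⊓ Wc x := by
    intro x hx
    exact Opens.mem_iSup.mpr ⟨⟨x, hW hx⟩, hx, hxW ⟨x, hW hx⟩⟩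
  apply eq_of_locally_eq_M Q (fun x => W ⊓ Wc x) W (fun x => inf_le_left) hcoverW
  intro x
  rw [← φ.app_res W (W ⊓ Wc x) hW inf_le_left, res_smul,
    ← φ'.app_res W (W ⊓ Wc x) hW inf_le_left, resO_resO, hPc x (W ⊓ Wc x) inf_le_right,
    ← ha x, resO_resO]

/-! ### Rigidified modules over an open -/

/-- A *rigidification over `G`* of the module `P` along `σ : T ⟶ X`, in sectionwise form:
`P` has local generators over `G`, and there is an evaluation `Γ(P, W) → Γ(T, σ⁻¹ W)` for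
`W ≤ G`, semilinear along `σ`, compatible with restrictions, and sending local generators to
units. -/
structure RigLoc (σ : T ⟶ X) (G : X.Opens) (P : X.Modules) where
  /-- the evaluation -/
  val : ∀ (W : X.Opens), W ≤ G → (Γ(P, W) →+ Γ(T, σ ⁻¹ᵁ W))
  val_smul : ∀ (W : X.Opens) (hW : W ≤ G) (r : Γ(X, W)) (s : Γ(P, W)),
    val W hW (r • s) = σ.app W r * val W hW s
  val_res : ∀ (W W' : X.Opens) (hW : W ≤ G) (h : W' ≤ W) (s : Γ(P, W)),
    val W' (h.trans hW) (res P h s) = resO (σ.preimage_mono h) (val W hW s)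
  gen : HasLocalGeneratorsOn G P
  unit : ∀ (W : X.Opens) (hW : W ≤ G) (s : Γ(P, W)), IsLocalGenerator P W s →
    IsUnit (val W hW s)

namespace RigLoc

variable {σ : T ⟶ X} {G : X.Opens} {P Q : X.Modules}

/-- Restriction of a rigidification to a smaller open. -/
def restrict (R : RigLoc σ G P) {G' : X.Opens} (hG : G' ≤ G) : RigLoc σ G' P where
  val W hW := R.val W (hW.trans hG)
  val_smul W hW r s := R.val_smul W _ r s
  val_res W W' hW h s := R.val_res W W' _ h s
  gen := R.gen.mono hG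
  unit W hW s hs := R.unit W _ s hs

@[simp] theorem restrict_val (R : RigLoc σ G P) {G' : X.Opens} (hG : G' ≤ G) (W : X.Opens)
    (hW : W ≤ G') (s : Γ(P, W)) : (R.restrict hG).val W hW s = R.val W (hW.trans hG) s := rfl

/-- A sectionwise morphism is *normalised* if it is compatible with the evaluations. -/
def IsNormalised (R : RigLoc σ G P) (R' : RigLoc σ G Q) (φ : LocHom G P Q) : Prop :=
  ∀ (W : X.Opens) (hW : W ≤ G) (s : Γ(P, W)), R'.val W hW (φ.app W hW s) = R.val W hW s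

/-- If `ev' (φ t) = b * ev t` for a local generator `t` on `W₀`, the same holds for all
sections over all opens `W ≤ W₀`. -/
theorem val_app_eq_of_generator (R : RigLoc σ G P) (R' : RigLoc σ G Q) (φ : LocHom G P Q)
    {W₀ : X.Opens} (h₀ : W₀ ≤ G) {t : Γ(P, W₀)} (ht : IsLocalGenerator P W₀ t)
    {b : Γ(T, σ ⁻¹ᵁ W₀)} (hb : R'.val W₀ h₀ (φ.app W₀ h₀ t) = b * R.val W₀ h₀ t)
    (W : X.Opens) (hW : W ≤ W₀) (s : Γ(P, W)) :
    R'.val W (hW.trans h₀) (φ.app W (hW.trans h₀) s) =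
      resO (σ.preimage_mono hW) b * R.val W (hW.trans h₀) s := by
  obtain ⟨r, hr⟩ := (ht W hW).2 s
  simp only at hr
  rw [← hr, φ.app_smul, R'.val_smul, R.val_smul, φ.app_res W₀ W h₀ hW t,
    R'.val_res W₀ W h₀ hW, R.val_res W₀ W h₀ hW, hb, resO_mul]
  ring

/-- **The ratio** of a sectionwise isomorphism with respect to two rigidifications. -/
theorem exists_ratio (R : RigLoc σ G P) (R' : RigLoc σ G Q) (φ : LocHom G P Q) (hφ : φ.IsBij) :
    ∃ b : Γ(T, σ ⁻¹ᵁ G), IsUnit b ∧ ∀ (W : X.Opens) (hW : W ≤ G) (s : Γ(P, W)),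
      R'.val W hW (φ.app W hW s) = resO (σ.preimage_mono hW) b * R.val W hW s := by
  have hP' : ∀ x : (σ ⁻¹ᵁ G : T.Opens), ∃ (W : X.Opens) (s : Γ(P, W)),
      W ≤ G ∧ σ x.1 ∈ W ∧ IsLocalGenerator P W s := fun x => R.gen (σ x.1) x.2
  choose Wc t hWG hxW ht using hP'
  have hue : ∀ x, IsUnit (R.val (Wc x) (hWG x) (t x)) := fun x => R.unit _ _ _ (ht x)
  have hue' : ∀ x, IsUnit (R'.val (Wc x) (hWG x) (φ.app _ (hWG x) (t x))) := fun x =>
    R'.unit _ _ _ (LocHom.isLocalGenerator_app hφ (hWG x) (ht x))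
  have hex : ∀ x, ∃ b : Γ(T, σ ⁻¹ᵁ Wc x), IsUnit b ∧
      R'.val (Wc x) (hWG x) (φ.app _ (hWG x) (t x)) = b * R.val (Wc x) (hWG x) (t x) := by
    intro x
    refine ⟨R'.val (Wc x) (hWG x) (φ.app _ (hWG x) (t x)) *
      ((hue x).unit⁻¹ : (Γ(T, σ ⁻¹ᵁ Wc x))ˣ), (hue' x).mul (Units.isUnit _), ?_⟩
    rw [mul_assoc, IsUnit.val_inv_mul, mul_one]
  choose b hbu hb using hex
  have hPb : ∀ (x : (σ ⁻¹ᵁ G : T.Opens)) (W : X.Opens) (hW : W ≤ Wc x) (s : Γ(P, W)),
      R'.val W (hW.trans (hWG x)) (φ.app W (hW.trans (hWG x)) s) =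
        resO (σ.preimage_mono hW) (b x) * R.val W (hW.trans (hWG x)) s :=
    fun x W hW s => val_app_eq_of_generator R R' φ (hWG x) (ht x) (hb x) W hW s
  have hcover : σ ⁻¹ᵁ G ≤ ⨆ x, σ ⁻¹ᵁ Wc x := by
    intro x hx
    exact Opens.mem_iSup.mpr ⟨⟨x, hx⟩, hxW ⟨x, hx⟩⟩
  have hcompat : ∀ x y,
      resO (inf_le_left : σ ⁻¹ᵁ Wc x ⊓ σ ⁻¹ᵁ Wc y ≤ σ ⁻¹ᵁ Wc x) (b x) =
        resO (inf_le_right : σ ⁻¹ᵁ Wc x ⊓ σ ⁻¹ᵁ Wc y ≤ σ ⁻¹ᵁ Wc y) (b y) := by
    intro x y
    have hu : IsUnit (R.val (Wc x ⊓ Wc y) (inf_le_left.trans (hWG x))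
        (res P inf_le_left (t x))) :=
      R.unit _ _ _ (H146.isLocalGenerator_res (ht x) inf_le_left)
    have e1 := hPb x (Wc x ⊓ Wc y) inf_le_left (res P inf_le_left (t x))
    have e2 := hPb y (Wc x ⊓ Wc y) inf_le_right (res P inf_le_left (t x))
    rw [e1] at e2
    exact hu.mul_left_injective e2
  obtain ⟨b₀, hb₀⟩ := exists_gluing_O (fun x => σ ⁻¹ᵁ Wc x) (σ ⁻¹ᵁ G)
    (fun x => σ.preimage_mono (hWG x)) hcover b hcompat
  refine ⟨b₀, ?_, fun W hW s => ?_⟩
  · apply H146.isUnit_of_locally_isUnit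
    intro x hx
    refine ⟨σ ⁻¹ᵁ Wc ⟨x, hx⟩, σ.preimage_mono (hWG ⟨x, hx⟩), hxW ⟨x, hx⟩, ?_⟩
    rw [hb₀]
    exact hbu ⟨x, hx⟩
  · have hcoverW : σ ⁻¹ᵁ W ≤ ⨆ x, σ ⁻¹ᵁ (W ⊓ Wc x) := by
      intro x hx
      exact Opens.mem_iSup.mpr ⟨⟨x, hW hx⟩, hx, hxW ⟨x, hW hx⟩⟩
    apply eq_of_locally_eq_O (fun x => σ ⁻¹ᵁ (W ⊓ Wc x)) (σ ⁻¹ᵁ W)
      (fun x => σ.preimage_mono inf_le_left) hcoverW
    intro x
    have hA : resO (σ.preimage_mono (inf_le_left : W ⊓ Wc x ≤ W))
          (R'.val W hW (φ.app W hW s)) =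
        R'.val (W ⊓ Wc x) (inf_le_left.trans hW)
          (φ.app (W ⊓ Wc x) (inf_le_left.trans hW) (res P inf_le_left s)) := by
      rw [φ.app_res W (W ⊓ Wc x) hW inf_le_left, R'.val_res W (W ⊓ Wc x) hW inf_le_left]
    have hB := hPb x (W ⊓ Wc x) inf_le_right (res P inf_le_left s)
    have hC : resO (σ.preimage_mono (inf_le_left : W ⊓ Wc x ≤ W))
        (resO (σ.preimage_mono hW) b₀ * R.val W hW s) =
        resO (σ.preimage_mono (inf_le_right : W ⊓ Wc x ≤ Wc x)) (b x) *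
          R.val (W ⊓ Wc x) (inf_le_left.trans hW) (res P inf_le_left s) := by
      rw [resO_mul, resO_resO, ← hb₀ x, resO_resO, R.val_res W (W ⊓ Wc x) hW inf_le_left]
    rw [hA, hB, hC]

/-- **Normalisation.**  If `σ^♯` is bijective on `G`, every sectionwise isomorphism over `G`
can be normalised. -/
theorem exists_isNormalised (R : RigLoc σ G P) (R' : RigLoc σ G Q)
    (hbij : Function.Bijective (σ.app G)) (φ : LocHom G P Q) (hφ : φ.IsBij) :
    ∃ φ₁ : LocHom G P Q, φ₁.IsBij ∧ IsNormalised R R' φ₁ := by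
  obtain ⟨b, hbu, hb⟩ := exists_ratio R R' φ hφ
  obtain ⟨bu, hbu'⟩ := hbu
  obtain ⟨a, ha⟩ := hbij.2 ((bu⁻¹ : (Γ(T, σ ⁻¹ᵁ G))ˣ) : Γ(T, σ ⁻¹ᵁ G))
  obtain ⟨a', ha'⟩ := hbij.2 (bu : Γ(T, σ ⁻¹ᵁ G))
  have haa' : a * a' = 1 := by
    apply hbij.1
    rw [map_mul, ha, ha', map_one, Units.inv_mul]
  have hau : IsUnit a := IsUnit.of_mul_eq_one a' haa'
  refine ⟨LocHom.smul a φ, LocHom.isBij_smul hφ hau, fun W hW s => ?_⟩
  rw [LocHom.smul_app, R'.val_smul, hb, ← mul_assoc, app_resO, ha, ← hbu', ← resO_mul,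
    Units.inv_mul, resO_one, one_mul]

/-- **Rigidity.**  Two normalised sectionwise morphisms over `G` agree if one of them is an
isomorphism and `σ^♯` is injective on `G`. -/
theorem eq_of_isNormalised (R : RigLoc σ G P) (R' : RigLoc σ G Q)
    (hinj : Function.Injective (σ.app G)) {φ φ' : LocHom G P Q} (hφ' : φ'.IsBij)
    (hn : IsNormalised R R' φ) (hn' : IsNormalised R R' φ') : φ = φ' := by
  obtain ⟨a, ha⟩ := LocHom.exists_smul_eq R.gen φ φ' hφ'
  have ha1 : a = 1 := by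
    apply hinj
    rw [map_one]
    have hP' : ∀ x : (σ ⁻¹ᵁ G : T.Opens), ∃ (W : X.Opens) (s : Γ(P, W)),
        W ≤ G ∧ σ x.1 ∈ W ∧ IsLocalGenerator P W s := fun x => R.gen (σ x.1) x.2
    choose Wc t hWG hxW ht using hP'
    have hcover : σ ⁻¹ᵁ G ≤ ⨆ x, σ ⁻¹ᵁ Wc x := by
      intro x hx
      exact Opens.mem_iSup.mpr ⟨⟨x, hx⟩, hxW ⟨x, hx⟩⟩
    apply eq_of_locally_eq_O (fun x => σ ⁻¹ᵁ Wc x) (σ ⁻¹ᵁ G)
      (fun x => σ.preimage_mono (hWG x)) hcover
    intro x
    have hu := R.unit _ (hWG x) _ (ht x)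
    have h1 := hn (Wc x) (hWG x) (t x)
    rw [ha, R'.val_smul, hn'] at h1
    have h2 : σ.app (Wc x) (resO (hWG x) a) = 1 := by
      apply hu.mul_left_injective
      simp only
      rw [h1, one_mul]
    have h3 := app_resO (f := σ) (hWG x) a
    rw [← h3, h2, resO_one]
  apply LocHom.ext
  intro W hW s
  rw [ha, ha1, resO_one, one_smul]

end RigLoc

end Fermat.Agent.S25.H326

end
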