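/-
S25 helper (helper326), assembly block AS6 (`Stmt.SheafGlue`), part 2: gluing of rigidified
modules, abstract form.

`σ : T ⟶ X` a morphism of schemes, `G i` an open cover of `X`, `P i` modules on `X` with
rigidifications over `G i` (`RigLoc σ (G i) (P i)`), and *some* sectionwise isomorphisms
`P i ≅ P j` over `G i ⊓ G j` (no cocycle condition).  If `σ^♯` is bijective on the double
intersections and injective on the triple intersections, the `P i` glue to a module `M` with a
rigidifying evaluation `M ⟶ σ_* 𝒪_T`.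
-/
import Mathlib
import Fermat.Agent.S25.H326.RigLoc
import Fermat.Agent.S25.H926.GlueHom

set_option autoImplicit false
set_option linter.unusedVariables false

universe u

noncomputable section

open CategoryTheory AlgebraicGeometry TopologicalSpace Opposite Limits

namespace Fermat.Agent.S25.H326

open Fermat.Agent.S25.H626 (res resO res_res res_smul res_add app_res hom_ext_apply resO_resO
  unitMod toUnit ofUnit IsLocalGenerator eq_of_locally_eq_M eq_of_locally_eq_O exists_gluing_O
  resO_mul resO_one)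

variable {X T : Scheme.{u}}

/-- Functions on `σ⁻¹ W` as sections of `σ_* 𝒪_T` over `W` (the identity). -/
def toFunMod (σ : T ⟶ X) (W : X.Opens) : Γ(T, σ ⁻¹ᵁ W) →+ Γ(funMod σ, W) := AddMonoidHom.id _

theorem evFun_of_app_eq {σ : T ⟶ X} {L : X.Modules} (ev : L ⟶ funMod σ) (W : X.Opens)
    (s : Γ(L, W)) (a : Γ(T, σ ⁻¹ᵁ W)) (h : ev.app W s = toFunMod σ W a) : evFun ev W s = a := by
  unfold evFun
  rw [h]
  rfl

section Cover

variable {ι : Type u} (G : ι → X.Opens)

/-- The opens contained in a member of the family `G`. -/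
def coverSet : Set X.Opens := {W | ∃ i, W ≤ G i}

theorem isDownBasis_coverSet (hG : ⨆ i, G i = ⊤) : H926.IsDownBasis (coverSet G) where
  down := fun ⟨i, hi⟩ h => ⟨i, h.trans hi⟩
  cover := fun V x hx => by
    have hx' : x ∈ ⨆ i, G i := by rw [hG]; trivial
    obtain ⟨i, hi⟩ := Opens.mem_iSup.mp hx'
    exact Opens.mem_iSup.mpr ⟨⟨V ⊓ G i, ⟨i, inf_le_right⟩, inf_le_left⟩, hx, hi⟩

end Cover

/-- **Gluing of rigidified modules** (abstract form of `Stmt.SheafGlue`). -/
theorem exists_rigidified_glue {ι : Type u} (σ : T ⟶ X) (G : ι → X.Opens)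
    (hG : ⨆ i, G i = ⊤) (P : ι → X.Modules) (R : ∀ i, RigLoc σ (G i) (P i))
    (hbij : ∀ i j, Function.Bijective (σ.app (G i ⊓ G j)))
    (hinj : ∀ i j k, Function.Injective (σ.app (G i ⊓ G j ⊓ G k)))
    (τ : ∀ i j, LocHom (G i ⊓ G j) (P i) (P j)) (hτ : ∀ i j, (τ i j).IsBij) :
    ∃ (M : X.Modules) (ev : M ⟶ funMod σ) (e : ∀ i, LocHom (G i) M (P i)),
      (∀ i, (e i).IsBij) ∧ IsRigidifying ev := by
  -- normalise the transition maps
  have hnorm : ∀ i j, ∃ τ' : LocHom (G i ⊓ G j) (P i) (P j), τ'.IsBij ∧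
      RigLoc.IsNormalised ((R i).restrict inf_le_left) ((R j).restrict inf_le_right) τ' :=
    fun i j => RigLoc.exists_isNormalised _ _ (hbij i j) (τ i j) (hτ i j)
  choose τ' hτ'b hτ'n using hnorm
  have hn : ∀ (i j : ι) (W : X.Opens) (hW : W ≤ G i ⊓ G j) (s : Γ(P i, W)),
      (R j).val W (hW.trans inf_le_right) ((τ' i j).app W hW s) =
        (R i).val W (hW.trans inf_le_left) s := fun i j W hW s => hτ'n i j W hW s
  -- the cocycle condition holds automatically
  have hself : ∀ (i : ι) (W : X.Opens) (hW : W ≤ G i ⊓ G i) (s : Γ(P i, W)),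
      (τ' i i).app W hW s = s := by
    intro i W hW s
    have h := RigLoc.eq_of_isNormalised ((R i).restrict inf_le_left)
      ((R i).restrict inf_le_right) (hbij i i).1 (φ := τ' i i)
      (φ' := LocHom.id (G i ⊓ G i) (P i)) (LocHom.isBij_id _ _) (hτ'n i i)
      (fun W hW s => rfl)
    rw [h]
    rfl
  have hcoc : ∀ (i j k : ι) (W : X.Opens) (hij : W ≤ G i ⊓ G j) (hjk : W ≤ G j ⊓ G k)
      (hik : W ≤ G i ⊓ G k) (s : Γ(P i, W)),
      (τ' j k).app W hjk ((τ' i j).app W hij s) = (τ' i k).app W hik s := by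
    intro i j k W hij hjk hik s
    have h1 : G i ⊓ G j ⊓ G k ≤ G i ⊓ G j := inf_le_left
    have h2 : G i ⊓ G j ⊓ G k ≤ G j ⊓ G k := le_inf (inf_le_left.trans inf_le_right) inf_le_right
    have h3 : G i ⊓ G j ⊓ G k ≤ G i ⊓ G k := le_inf (inf_le_left.trans inf_le_left) inf_le_right
    have h := RigLoc.eq_of_isNormalised ((R i).restrict (h1.trans inf_le_left))
      ((R k).restrict (h2.trans inf_le_right)) (hinj i j k)
      (φ := ((τ' i j).restrict h1).comp ((τ' j k).restrict h2))
      (φ' := (τ' i k).restrict h3) ((hτ'b i k).restrict h3)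
      (fun W hW s => by
        show (R k).val W _ ((τ' j k).app W _ ((τ' i j).app W _ s)) = (R i).val W _ s
        rw [hn j k W (hW.trans h2), hn i j W (hW.trans h1)])
      (fun W hW s => hn i k W (hW.trans h3) s)
    have hW : W ≤ G i ⊓ G j ⊓ G k := le_inf hij (hjk.trans inf_le_right)
    exact congrArg (fun φ : LocHom (G i ⊓ G j ⊓ G k) (P i) (P k) => φ.app W hW s) h
  -- glue
  obtain ⟨M, e, he, hcompat⟩ : ∃ (M : X.Modules) (e : ∀ i, LocHom (G i) M (P i)),
      (∀ i, (e i).IsBij) ∧ ∀ (i j : ι) (W : X.Opens) (hW : W ≤ G i ⊓ G j) (s : Γ(M, W)),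
        (τ' i j).app W hW ((e i).app W (hW.trans inf_le_left) s) =
          (e j).app W (hW.trans inf_le_right) s :=
    exists_glue ({ G := G, P := P, τ := τ', τ_self := hself, τ_cocycle := hcoc } : GlueData X ι)
  have key : ∀ (i j : ι) (W : X.Opens) (hi : W ≤ G i) (hj : W ≤ G j) (s : Γ(M, W)),
      (R i).val W hi ((e i).app W hi s) = (R j).val W hj ((e j).app W hj s) := by
    intro i j W hi hj s
    have h1 := hcompat i j W (le_inf hi hj) s
    have h2 := hn i j W (le_inf hi hj) ((e i).app W hi s)
    rw [← h2]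
    exact congrArg _ h1
  -- the glued evaluation
  have hB := isDownBasis_coverSet G hG
  let D : H926.BasisHomData (coverSet G) M (funMod σ) :=
    { a := fun W hW => (toFunMod σ W).comp
        (((R hW.choose).val W hW.choose_spec).comp ((e hW.choose).app W hW.choose_spec))
      nat := fun W W' hW hW' h s => by
        show toFunMod σ W' ((R hW'.choose).val W' hW'.choose_spec
            ((e hW'.choose).app W' hW'.choose_spec (res M h s))) =
          res (funMod σ) h (toFunMod σ W ((R hW.choose).val W hW.choose_spec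
            ((e hW.choose).app W hW.choose_spec s)))
        rw [key hW'.choose hW.choose W' hW'.choose_spec (h.trans hW.choose_spec),
          (e hW.choose).app_res W W' hW.choose_spec h,
          (R hW.choose).val_res W W' hW.choose_spec h]
        rfl
      lin := fun W hW r s => by
        show toFunMod σ W ((R hW.choose).val W hW.choose_spec
            ((e hW.choose).app W hW.choose_spec (r • s))) =
          r • toFunMod σ W ((R hW.choose).val W hW.choose_spec
            ((e hW.choose).app W hW.choose_spec s))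
        rw [(e hW.choose).app_smul, (R hW.choose).val_smul]
        rfl }
  have hev : ∀ (i : ι) (W : X.Opens) (hi : W ≤ G i) (s : Γ(M, W)),
      evFun (D.glue hB) W s = (R i).val W hi ((e i).app W hi s) := by
    intro i W hi s
    have hW : W ∈ coverSet G := ⟨i, hi⟩
    apply evFun_of_app_eq
    rw [D.glue_app_of_mem hB W hW s]
    show toFunMod σ W ((R hW.choose).val W hW.choose_spec
        ((e hW.choose).app W hW.choose_spec s)) = _
    rw [key hW.choose i W hW.choose_spec hi]
  refine ⟨M, D.glue hB, e, he, fun t => ?_⟩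
  have hx : σ t ∈ ⨆ i, G i := by rw [hG]; trivial
  obtain ⟨i, hi⟩ := Opens.mem_iSup.mp hx
  obtain ⟨W, s, hWG, hxW, hs⟩ := (R i).gen (σ t) hi
  refine ⟨W, ((e i).symm (he i)).app W hWG s, hxW,
    LocHom.isLocalGenerator_app (LocHom.isBij_symm (e i) (he i)) hWG hs, ?_⟩
  rw [hev i W hWG, LocHom.apply_symm_apply]
  exact (R i).unit W hWG s hs

end Fermat.Agent.S25.H326

end
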