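/-
S25 helper (helper326), assembly block AS6 (`Stmt.SheafGlue`), part 3: transport along open
immersions.

* `locHomOfRestrictHom`, `restrictHomOfLocHom` : morphisms between restrictions along an open
  immersion `f` versus sectionwise morphisms over the range of `f`;
* `nonempty_pullback_iso_of_locHom` (Conv3) : a sectionwise isomorphism `M ≅ b_* L` over the
  range of `b` gives `b^* M ≅ L`;
* `exists_locHom_of_pullback_iso` (Conv2) : an isomorphism `a_i^* L_i ≅ a_j^* L_j` gives a
  sectionwise isomorphism `(b_i)_* L_i ≅ (b_j)_* L_j` over the range of `a_i ≫ b_i = a_j ≫ b_j`;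
* `hasLocalGeneratorsOn_pushforward`, `rigLocOfIso`, `rigLocPushforward` (Conv1) : the
  pushforward of a rigidified invertible module along an open immersion is rigidified over the
  range.
-/
import Mathlib
import Fermat.Agent.S25.H326.RigGlue
import Fermat.Agent.S25.H926.GlueIso

set_option autoImplicit false
set_option linter.unusedVariables false

universe u

noncomputable section

open CategoryTheory AlgebraicGeometry TopologicalSpace Opposite Limits

namespace Fermat.Agent.S25.H326

open Fermat.Agent.S25.H626 (res resO res_res res_smul res_add app_res hom_ext_apply resO_resO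
  unitMod toUnit ofUnit IsLocalGenerator eq_of_locally_eq_M eq_of_locally_eq_O exists_gluing_O
  resO_mul resO_one)

variable {X Y : Scheme.{u}}

section RestrictLocHom

variable (f : Y ⟶ X) [IsOpenImmersion f] {M N : X.Modules}

/-- A morphism between restrictions along an open immersion, sectionwise over its range. -/
def locHomOfRestrictHom (ψ : M.restrict f ⟶ N.restrict f) : LocHom f.opensRange M N where
  app W hW := H926.sectionMap f ψ W hW
  app_smul W hW r s := H926.sectionMap_smul f ψ W hW r s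
  app_res W W' hW h s := H926.sectionMap_map f ψ hW h s

theorem isBij_locHomOfRestrictIso (e : M.restrict f ≅ N.restrict f) :
    (locHomOfRestrictHom f e.hom).IsBij := fun W hW =>
  Function.bijective_iff_has_inverse.mpr
    ⟨H926.sectionMap f e.inv W hW, fun s => H926.sectionMap_inv_hom f e W hW s,
      fun s => H926.sectionMap_hom_inv f e W hW s⟩

/-- A sectionwise morphism over an open containing the range of `f` induces a morphism between
the restrictions along `f`. -/
def restrictHomOfLocHom {G : X.Opens} (hf : f.opensRange ≤ G) (φ : LocHom G M N) :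
    M.restrict f ⟶ N.restrict f :=
  mkHom (fun V => (H926.toRestr f N V).comp
      ((φ.app (f ''ᵁ V) ((f.image_le_opensRange V).trans hf)).comp (H926.ofRestr f M V)))
    (fun V V' h s => by
      simp only [AddMonoidHom.comp_apply]
      have h1 : H926.ofRestr f M V' (res (M.restrict f) h s) =
          res M (f.image_mono h) (H926.ofRestr f M V s) := rfl
      rw [h1, φ.app_res (f ''ᵁ V) (f ''ᵁ V') _ (f.image_mono h)]
      rfl)
    (fun V r s => by
      simp only [AddMonoidHom.comp_apply]
      rw [H926.ofRestr_smul, φ.app_smul, H926.toRestr_smul]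
      congr 1
      simp)

theorem restrictHomOfLocHom_app {G : X.Opens} (hf : f.opensRange ≤ G) (φ : LocHom G M N)
    (V : Y.Opens) (s : Γ(M.restrict f, V)) :
    (restrictHomOfLocHom f hf φ).app V s =
      H926.toRestr f N V (φ.app (f ''ᵁ V) ((f.image_le_opensRange V).trans hf)
        (H926.ofRestr f M V s)) := rfl

theorem isIso_restrictHomOfLocHom {G : X.Opens} (hf : f.opensRange ≤ G) (φ : LocHom G M N)
    (hφ : φ.IsBij) : IsIso (restrictHomOfLocHom f hf φ) := by
  rw [Scheme.Modules.Hom.isIso_iff_isIso_app]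
  intro V
  refine (ConcreteCategory.isIso_iff_bijective (C := Ab) _).mpr ?_
  exact hφ (f ''ᵁ V) ((f.image_le_opensRange V).trans hf)

/-- **Conv3.** A sectionwise isomorphism `M ≅ b_* L` over the range of the open immersion `b`
gives an isomorphism `b^* M ≅ L`. -/
theorem nonempty_pullback_iso_of_locHom (L : Y.Modules)
    (e : LocHom f.opensRange M ((Scheme.Modules.pushforward f).obj L)) (he : e.IsBij) :
    Nonempty ((Scheme.Modules.pullback f).obj M ≅ L) := by
  have := isIso_restrictHomOfLocHom f le_rfl e he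
  exact ⟨((Scheme.Modules.restrictFunctorIsoPullback f).app M).symm ≪≫
    asIso (restrictHomOfLocHom f le_rfl e) ≪≫
    (Scheme.Modules.restrictFunctorAdjCounitIso f).app L⟩

end RestrictLocHom

section Conv2

variable {X Y Z : Scheme.{u}}

/-- `(b_* L)|_{a ≫ b} ≅ a^* L` for open immersions `a`, `b`. -/
def restrictPushforwardIso (a : Z ⟶ Y) (b : Y ⟶ X) [IsOpenImmersion a] [IsOpenImmersion b]
    (L : Y.Modules) :
    ((Scheme.Modules.pushforward b).obj L).restrict (a ≫ b) ≅
      (Scheme.Modules.pullback a).obj L :=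
  (Scheme.Modules.restrictFunctorComp a b).app _ ≪≫
    (Scheme.Modules.restrictFunctor a).mapIso
      ((Scheme.Modules.restrictFunctorAdjCounitIso b).app L) ≪≫
    (Scheme.Modules.restrictFunctorIsoPullback a).app L

variable {Yi Yj : Scheme.{u}} (ai : Z ⟶ Yi) (aj : Z ⟶ Yj) (bi : Yi ⟶ X) (bj : Yj ⟶ X)
  [IsOpenImmersion ai] [IsOpenImmersion aj] [IsOpenImmersion bi] [IsOpenImmersion bj]

/-- **Conv2.** An isomorphism between the pullbacks of `L i`, `L j` to a common open
subscheme gives a sectionwise isomorphism between the pushforwards over its range. -/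
theorem exists_locHom_of_pullback_iso (h : ai ≫ bi = aj ≫ bj) (Li : Yi.Modules)
    (Lj : Yj.Modules)
    (iso : (Scheme.Modules.pullback ai).obj Li ≅ (Scheme.Modules.pullback aj).obj Lj) :
    ∃ φ : LocHom (ai ≫ bi).opensRange ((Scheme.Modules.pushforward bi).obj Li)
      ((Scheme.Modules.pushforward bj).obj Lj), φ.IsBij := by
  let E : ((Scheme.Modules.pushforward bi).obj Li).restrict (ai ≫ bi) ≅
      ((Scheme.Modules.pushforward bj).obj Lj).restrict (ai ≫ bi) :=
    restrictPushforwardIso ai bi Li ≪≫ iso ≪≫ (restrictPushforwardIso aj bj Lj).symm ≪≫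
      ((Scheme.Modules.restrictFunctorCongr h).app _).symm
  exact ⟨locHomOfRestrictHom (ai ≫ bi) E.hom, isBij_locHomOfRestrictIso (ai ≫ bi) E⟩

end Conv2

section Conv1

variable {X Y : Scheme.{u}}

/-- **Conv1 (generators).** The pushforward of an invertible module along an open immersion
has local generators over the range. -/
theorem hasLocalGeneratorsOn_pushforward (b : Y ⟶ X) [IsOpenImmersion b] (L : Y.Modules)
    (hL : Scheme.Modules.IsInvertible L) :
    HasLocalGeneratorsOn b.opensRange ((Scheme.Modules.pushforward b).obj L) := by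
  rintro x ⟨y, rfl⟩
  obtain ⟨V, hyV, ⟨e⟩⟩ := hL.exists_trivialization y
  let e' : ((Scheme.Modules.pushforward b).obj L).restrict (V.ι ≫ b) ≅ unitMod V.toScheme :=
    restrictPushforwardIso V.ι b L ≪≫ e
  refine ⟨(V.ι ≫ b) ''ᵁ ⊤, H626.genX (V.ι ≫ b) _ e' ⊤, ?_, ?_,
    H626.isLocalGenerator_genX (V.ι ≫ b) _ e'⟩
  · rw [Scheme.Hom.comp_image]
    exact b.image_le_opensRange _
  · rw [Scheme.Hom.comp_image, Scheme.Opens.ι_image_top]
    exact ⟨y, hyV, rfl⟩

end Conv1

section LemmaA

variable {X T T' : Scheme.{u}} (j : T' ⟶ T) [IsOpenImmersion j] (σ : T ⟶ X) {P : X.Modules}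

/-- For an open immersion `j`, the ring isomorphism `j^♯` on an open inside the range. -/
def appEquiv (V : T.Opens) (hV : V ≤ j.opensRange) : Γ(T, V) ≃+* Γ(T', j ⁻¹ᵁ V) :=
  haveI := j.isIso_app V hV
  RingEquiv.ofBijective (j.app V).hom (ConcreteCategory.bijective_of_isIso (j.app V))

theorem appEquiv_apply (V : T.Opens) (hV : V ≤ j.opensRange) (a : Γ(T, V)) :
    appEquiv j V hV a = j.app V a := rfl

theorem appEquiv_symm_resO {V V' : T.Opens} (hV : V ≤ j.opensRange) (h : V' ≤ V)
    (x : Γ(T', j ⁻¹ᵁ V)) :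
    (appEquiv j V' (h.trans hV)).symm (resO (j.preimage_mono h) x) =
      resO h ((appEquiv j V hV).symm x) := by
  apply (appEquiv j V' (h.trans hV)).injective
  rw [RingEquiv.apply_symm_apply, appEquiv_apply, app_resO, ← appEquiv_apply j V hV,
    RingEquiv.apply_symm_apply]

theorem evFun_add {f : T' ⟶ X} {L : X.Modules} (ev : L ⟶ funMod f) (W : X.Opens)
    (s s' : Γ(L, W)) : evFun ev W (s + s') = evFun ev W s + evFun ev W s' := by
  unfold evFun
  rw [map_add]
  rfl

/-- The evaluation as an additive map. -/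
def evFunHom {f : T' ⟶ X} {L : X.Modules} (ev : L ⟶ funMod f) (W : X.Opens) :
    Γ(L, W) →+ Γ(T', f ⁻¹ᵁ W) :=
  AddMonoidHom.mk' (evFun ev W) (evFun_add ev W)

/-- The evaluation attached to a trivialisation of the pullback. -/
def evOfIso {f : T' ⟶ X} {L : X.Modules}
    (ρ : (Scheme.Modules.pullback f).obj L ≅ unitMod T') : L ⟶ funMod f :=
  (Scheme.Modules.pullbackPushforwardAdjunction f).homEquiv L (unitMod T') ρ.hom

/-- Functions on `(j ≫ σ)⁻¹ W` are functions on `j⁻¹ (σ⁻¹ W)` (the identity). -/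
def castComp (W : X.Opens) : Γ(T', (j ≫ σ) ⁻¹ᵁ W) →+* Γ(T', j ⁻¹ᵁ (σ ⁻¹ᵁ W)) := RingHom.id _

omit [IsOpenImmersion j] in
theorem castComp_app (W : X.Opens) (r : Γ(X, W)) :
    castComp j σ W ((j ≫ σ).app W r) = j.app (σ ⁻¹ᵁ W) (σ.app W r) := rfl

omit [IsOpenImmersion j] in
theorem castComp_resO {W W' : X.Opens} (h : W' ≤ W) (x : Γ(T', (j ≫ σ) ⁻¹ᵁ W)) :
    castComp j σ W' (resO ((j ≫ σ).preimage_mono h) x) =
      resO (j.preimage_mono (σ.preimage_mono h)) (castComp j σ W x) := rfl

/-- **Conv1 (evaluation).**  A trivialisation of the pullback of `P` along `j ≫ σ`, where `j`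
is an open immersion whose range contains `σ⁻¹ G`, and local generators of `P` over `G`, give
a rigidification of `P` over `G` along `σ`. -/
def rigLocOfIso (ρ : (Scheme.Modules.pullback (j ≫ σ)).obj P ≅ unitMod T') (G : X.Opens)
    (hG : σ ⁻¹ᵁ G ≤ j.opensRange) (hgen : HasLocalGeneratorsOn G P) : RigLoc σ G P where
  val W hW :=
    ((appEquiv j (σ ⁻¹ᵁ W) ((σ.preimage_mono hW).trans hG)).symm :
        Γ(T', j ⁻¹ᵁ (σ ⁻¹ᵁ W)) →+ Γ(T, σ ⁻¹ᵁ W)).comp
      (((castComp j σ W : Γ(T', (j ≫ σ) ⁻¹ᵁ W) →+ Γ(T', j ⁻¹ᵁ (σ ⁻¹ᵁ W)))).comp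
        (evFunHom (f := j ≫ σ) (evOfIso ρ) W))
  val_smul W hW r s := by
    show (appEquiv j (σ ⁻¹ᵁ W) ((σ.preimage_mono hW).trans hG)).symm
        (castComp j σ W (evFun (f := j ≫ σ) (evOfIso ρ) W (r • s))) =
      σ.app W r * (appEquiv j (σ ⁻¹ᵁ W) ((σ.preimage_mono hW).trans hG)).symm
        (castComp j σ W (evFun (f := j ≫ σ) (evOfIso ρ) W s))
    rw [evFun_smul, map_mul, map_mul, castComp_app]
    congr 1
    exact (appEquiv j (σ ⁻¹ᵁ W) _).symm_apply_apply (σ.app W r)
  val_res W W' hW h s := by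
    show (appEquiv j (σ ⁻¹ᵁ W') (((σ.preimage_mono (h.trans hW))).trans hG)).symm
        (castComp j σ W' (evFun (f := j ≫ σ) (evOfIso ρ) W' (res P h s))) =
      resO (σ.preimage_mono h) ((appEquiv j (σ ⁻¹ᵁ W) ((σ.preimage_mono hW).trans hG)).symm
        (castComp j σ W (evFun (f := j ≫ σ) (evOfIso ρ) W s)))
    rw [evFun_res, castComp_resO j σ h]
    exact appEquiv_symm_resO j ((σ.preimage_mono hW).trans hG) (σ.preimage_mono h) _
  gen := hgen
  unit W hW s hs := by
    show IsUnit ((appEquiv j (σ ⁻¹ᵁ W) ((σ.preimage_mono hW).trans hG)).symm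
        (castComp j σ W (evFun (f := j ≫ σ) (evOfIso ρ) W s)))
    exact ((isUnit_evFun_of_iso (j ≫ σ) hs ρ).map (castComp j σ W)).map
      (appEquiv j (σ ⁻¹ᵁ W) ((σ.preimage_mono hW).trans hG)).symm

end LemmaA

section Square

variable {X Y T T' : Scheme.{u}} (σ' : T' ⟶ Y) (b : Y ⟶ X) (j : T' ⟶ T) (σ : T ⟶ X)
  [IsOpenImmersion b] [IsOpenImmersion j]

/-- A trivialisation of `σ'^* L` gives a trivialisation of `(j ≫ σ)^* (b_* L)` when
`σ' ≫ b = j ≫ σ`. -/
def pullbackPushforwardIso (h : σ' ≫ b = j ≫ σ) (L : Y.Modules)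
    (ρ : (Scheme.Modules.pullback σ').obj L ≅ unitMod T') :
    (Scheme.Modules.pullback (j ≫ σ)).obj ((Scheme.Modules.pushforward b).obj L) ≅
      unitMod T' :=
  (Scheme.Modules.pullbackCongr h.symm).app _ ≪≫
    ((Scheme.Modules.pullbackComp σ' b).app _).symm ≪≫
    (Scheme.Modules.pullback σ').mapIso
      (((Scheme.Modules.restrictFunctorIsoPullback b).app _).symm ≪≫
        (Scheme.Modules.restrictFunctorAdjCounitIso b).app L) ≪≫ ρ

/-- **Conv1.** The pushforward along the open immersion `b` of an invertible module rigidified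
along `σ'` is rigidified over the range of `b` along `σ`, in a square `σ' ≫ b = j ≫ σ` with
`j` an open immersion whose range contains `σ⁻¹ (range b)`. -/
def rigLocPushforward (h : σ' ≫ b = j ≫ σ) (L : Y.Modules)
    (hL : Scheme.Modules.IsInvertible L) (ρ : (Scheme.Modules.pullback σ').obj L ≅ unitMod T')
    (hG : σ ⁻¹ᵁ b.opensRange ≤ j.opensRange) :
    RigLoc σ b.opensRange ((Scheme.Modules.pushforward b).obj L) :=
  rigLocOfIso j σ (pullbackPushforwardIso σ' b j σ h L ρ) b.opensRange hG
    (hasLocalGeneratorsOn_pushforward b L hL)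

end Square

end Fermat.Agent.S25.H326

end
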