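/-
S25 helper (helper326), assembly block AS6: **SHEAF-GLUE**.

`Stmt.SheafGlue c ε`: rigidified line bundles on `C ×ₖ T` glue along a Zariski cover of the
base `T` as soon as they are isomorphic on the pairwise overlaps.

Proof: push the bundles forward to `X = C ×ₖ T` along the open immersions `C ×ₖ U i ⟶ X`
(Transport.lean), normalise the transition isomorphisms with respect to the rigidifications so
that the cocycle condition holds automatically, glue, and glue the evaluations
(RigGlue.lean).
-/
import Mathlib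
import Fermat.Agent.S25.Defs
import Fermat.Agent.S25.H326.Transport
import Fermat.Agent.S25.H145.SheafSep
import Fermat.Agent.S25.H146.SheafSep
import Fermat.Agent.S25.H986.InvertibleLocal

set_option autoImplicit false
set_option linter.unusedVariables false

universe u

noncomputable section

open CategoryTheory CategoryTheory.Limits AlgebraicGeometry AlgebraicGeometry.RelPicard
  NeronModelInfra GoodReductionJacobian TopologicalSpace

namespace Fermat.Agent.S25.H326

section BaseChange

variable {R : Type u} [CommRing R] {C : Scheme.{u}} (c : C ⟶ Spec (CommRingCat.of R))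
  {T T' : Scheme.{u}} {t : T ⟶ Spec (CommRingCat.of R)} {t' : T' ⟶ Spec (CommRingCat.of R)}

/-- The base change of an open immersion is an open immersion. -/
theorem isOpenImmersion_baseChangeSnd (s : SchemeHomOver t' t) [IsOpenImmersion s.1] :
    IsOpenImmersion (baseChangeSnd c s) :=
  MorphismProperty.of_isPullback (P := @IsOpenImmersion)
    (H205.isPullback_baseChangeSnd c s).flip (inferInstance : IsOpenImmersion s.1)

end BaseChange

section Main

variable (k : Type u) [Field k] [IsAlgClosed k] {C : Scheme.{u}}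
  (c : C ⟶ Spec (CommRingCat.of k)) [IsProper c] [IsIntegral C]
  (ε : SchemeHomOver (𝟙 (Spec (CommRingCat.of k))) c)

/-- **AS6**, `Stmt.SheafGlue`. -/
theorem sheafGlue : Stmt.SheafGlue c ε := by
  intro T t ι U hU M hM
  -- notation
  set σ : T ⟶ pullback c t := rigSection c t ε with hσ
  set π : pullback c t ⟶ T := pullback.snd c t with hπ
  let b : ∀ i, pullback c ((U i).ι ≫ t) ⟶ pullback c t := fun i => H146.openBC c t (U i)
  let G : ι → (pullback c t).Opens := fun i => (b i).opensRange
  have hGeq : ∀ i, G i = π ⁻¹ᵁ (U i) := fun i => H146.opensRange_openBC c t (U i)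
  have hG : ⨆ i, G i = ⊤ := by
    have : (fun i => G i) = fun i => π ⁻¹ᵁ (U i) := funext hGeq
    rw [this, ← Scheme.Hom.preimage_iSup, hU]
    rfl
  let P : ι → (pullback c t).Modules := fun i => (Scheme.Modules.pushforward (b i)).obj (M i).L
  -- the rigidifications
  have hsq : ∀ i, rigSection c ((U i).ι ≫ t) ε ≫ b i = (U i).ι ≫ σ := fun i =>
    rigSection_baseChangeSnd c ε (⟨(U i).ι, rfl⟩ : SchemeHomOver ((U i).ι ≫ t) t)
  have hσG : ∀ i, σ ⁻¹ᵁ (b i).opensRange ≤ (U i).ι.opensRange := by
    intro i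
    have h1 : (b i).opensRange = π ⁻¹ᵁ (U i) := hGeq i
    rw [h1, H205.rigSection_preimage_snd_preimage, Scheme.Opens.opensRange_ι]
  let R : ∀ i, RigLoc σ (G i) (P i) := fun i =>
    rigLocPushforward (rigSection c ((U i).ι ≫ t) ε) (b i) (U i).ι σ (hsq i) (M i).L
      (M i).isInvertible (M i).rigidified.some (hσG i)
  -- `σ^♯` on the overlaps
  have hbij : ∀ i j, Function.Bijective (σ.app (G i ⊓ G j)) := fun i j =>
    H145.rigSection_app_bijective k c ε t _ (U i ⊓ U j) (by rw [hGeq, hGeq]; rfl)
  have hinj : ∀ i j l, Function.Injective (σ.app (G i ⊓ G j ⊓ G l)) := fun i j l =>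
    (H145.rigSection_app_bijective k c ε t _ (U i ⊓ U j ⊓ U l)
      (by rw [hGeq, hGeq, hGeq]; rfl)).1
  -- the transition maps
  have hτ : ∀ i j, ∃ τ : LocHom (G i ⊓ G j) (P i) (P j), τ.IsBij := by
    intro i j
    obtain ⟨iso⟩ := hM i j
    let si : SchemeHomOver ((U i ⊓ U j).ι ≫ t) ((U i).ι ≫ t) :=
      ⟨T.homOfLE (inf_le_left : U i ⊓ U j ≤ U i), by rw [← Category.assoc, Scheme.homOfLE_ι]⟩
    let sj : SchemeHomOver ((U i ⊓ U j).ι ≫ t) ((U j).ι ≫ t) :=
      ⟨T.homOfLE (inf_le_right : U i ⊓ U j ≤ U j), by rw [← Category.assoc, Scheme.homOfLE_ι]⟩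
    have : IsOpenImmersion si.1 :=
      inferInstanceAs (IsOpenImmersion (T.homOfLE (inf_le_left : U i ⊓ U j ≤ U i)))
    have : IsOpenImmersion sj.1 :=
      inferInstanceAs (IsOpenImmersion (T.homOfLE (inf_le_right : U i ⊓ U j ≤ U j)))
    have := isOpenImmersion_baseChangeSnd c si
    have := isOpenImmersion_baseChangeSnd c sj
    have hi : baseChangeSnd c si ≫ b i = H146.openBC c t (U i ⊓ U j) := by
      refine (baseChangeSnd_comp c (⟨(U i).ι, rfl⟩ : SchemeHomOver ((U i).ι ≫ t) t) si).trans ?_
      congr 1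
      exact Subtype.ext (Scheme.homOfLE_ι T (inf_le_left : U i ⊓ U j ≤ U i))
    have hj : baseChangeSnd c sj ≫ b j = H146.openBC c t (U i ⊓ U j) := by
      refine (baseChangeSnd_comp c (⟨(U j).ι, rfl⟩ : SchemeHomOver ((U j).ι ≫ t) t) sj).trans ?_
      congr 1
      exact Subtype.ext (Scheme.homOfLE_ι T (inf_le_right : U i ⊓ U j ≤ U j))
    obtain ⟨φ, hφ⟩ := exists_locHom_of_pullback_iso (baseChangeSnd c si) (baseChangeSnd c sj)
      (b i) (b j) (hi.trans hj.symm) (M i).L (M j).L iso
    have hrange : G i ⊓ G j ≤ (baseChangeSnd c si ≫ b i).opensRange := by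
      rw [H146.opensRange_congr hi, H146.opensRange_openBC, hGeq, hGeq]
      exact le_of_eq rfl
    exact ⟨φ.restrict hrange, hφ.restrict hrange⟩
  choose τ hτb using hτ
  -- glue
  obtain ⟨M₀, ev, e, he, hev⟩ := exists_rigidified_glue σ G hG P R hbij hinj τ hτb
  have hiso : ∀ i, Nonempty ((Scheme.Modules.pullback (b i)).obj M₀ ≅ (M i).L) := fun i =>
    nonempty_pullback_iso_of_locHom (b i) (M i).L (e i) (he i)
  have hinv : Scheme.Modules.IsInvertible M₀ := by
    refine H986.isInvertible_of_isOpenImmersion_cover b (fun x => ?_) M₀ (fun i =>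
      H986.isInvertible_of_iso (hiso i).some.symm (M i).isInvertible)
    have hx : x ∈ ⨆ i, G i := by rw [hG]; trivial
    obtain ⟨i, hi⟩ := Opens.mem_iSup.mp hx
    exact ⟨i, hi⟩
  exact ⟨⟨M₀, hinv, nonempty_iso_of_isRigidifying ev hev⟩, hiso⟩

end Main

end Fermat.Agent.S25.H326

end
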